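/-
Item 74 (HECKE-BAR), generic block GEN, part 1 (helper15): the LOCAL dictionary.

For a finite separable extension `F'/F` of fields over `K` and a place `v` of `F`, the places of
`F'` above `v` are the nonzero primes of `B_v := integralClosure O_v F'`, where `O_v` is the
valuation ring of `v` (a DVR).  `B_v` is a Dedekind domain, finite over `O_v`.
-/
import Mathlib
import Fermat.Agent.S24lib.FFPlaceVal
import Fermat.Prelude.Def_AlgebraicCurve_Correspondence

set_option autoImplicit false
set_option linter.style.haveILetI false

noncomputable section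

namespace Fermat.Agent.HeckeBar

open AlgebraicCurve IsDedekindDomain WithZero IsLocalRing Fermat.Agent.S24lib

section Max

variable {K F : Type*} [Field K] [Field F] [Algebra K F]

/-- A place is a maximal proper valuation subring: two places, one contained in the other,
are equal. -/
theorem loc_place_eq_of_le {w₁ w₂ : Place K F}
    (h : w₁.toValuationSubring ≤ w₂.toValuationSubring) : w₁ = w₂ := by
  apply Place.ext
  refine le_antisymm h ?_
  intro x hx
  by_contra hx1
  apply w₂.ne_top'
  have hx0 : x ≠ 0 := fun h0 => hx1 (h0 ▸ zero_mem _)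
  have hordx : w₁.ord x < 0 := by
    by_contra hcon
    exact hx1 (ffMem_of_ord_nonneg w₁ (not_lt.1 hcon))
  refine SetLike.ext fun y => ⟨fun _ => ValuationSubring.mem_top y, fun _ => ?_⟩
  by_cases hy1 : y ∈ w₁.toValuationSubring
  · exact h hy1
  have hy0 : y ≠ 0 := fun h0 => hy1 (h0 ▸ zero_mem _)
  have hordy : w₁.ord y < 0 := by
    by_contra hcon
    exact hy1 (ffMem_of_ord_nonneg w₁ (not_lt.1 hcon))
  set k : ℕ := (-w₁.ord y).toNat with hk
  have hkz : (k : ℤ) = -w₁.ord y := Int.toNat_of_nonneg (by omega)
  have hxk : x ^ k ≠ 0 := pow_ne_zero _ hx0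
  have hmem : y / x ^ k ∈ w₁.toValuationSubring := by
    apply ffMem_of_ord_nonneg
    rw [ffOrd_div w₁ hy0 hxk, ← zpow_natCast, w₁.ord_zpow]
    nlinarith
  have hy : y = (y / x ^ k) * x ^ k := by field_simp
  rw [hy]
  exact mul_mem (h hmem) (pow_mem hx k)

end Max

variable {K F F' : Type*} [Field K] [Field F] [Field F'] [Algebra K F] [Algebra K F']
  [Algebra F F'] [IsScalarTower K F F'] [FiniteDimensional F F'] [Algebra.IsSeparable F F']

/-- `B_v`, the integral closure of `O_v` in `F'`. -/
abbrev locB (v : Place K F) (F' : Type*) [Field F'] [Algebra F F'] :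
    Subalgebra v.toValuationSubring F' :=
  integralClosure v.toValuationSubring F'

instance locB_isDedekindDomain (v : Place K F) : IsDedekindDomain (locB v F') :=
  IsIntegralClosure.isDedekindDomain v.toValuationSubring F F' _

instance locB_isFractionRing (v : Place K F) : IsFractionRing (locB v F') F' :=
  integralClosure.isFractionRing_of_finite_extension F F'

instance locB_finite (v : Place K F) : Module.Finite v.toValuationSubring (locB v F') :=
  IsIntegralClosure.finite v.toValuationSubring F F' _

variable (v : Place K F)

omit [FiniteDimensional F F'] [Algebra.IsSeparable F F'] [Algebra K F'] [IsScalarTower K F F'] in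
/-- the image of `O_v` lies in `B_v` -/
lemma loc_algebraMap_mem (a : v.toValuationSubring) :
    algebraMap F F' (a : F) ∈ locB v F' :=
  Subalgebra.algebraMap_mem (locB v F') a

omit [FiniteDimensional F F'] [Algebra.IsSeparable F F'] in
/-- constants lie in `B_v` -/
lemma loc_const_mem (c : K) : algebraMap K F' c ∈ locB v F' := by
  rw [IsScalarTower.algebraMap_apply K F F']
  exact loc_algebraMap_mem v (algebraMap K v.toValuationSubring c)

/-- The place of `F'` attached to a nonzero prime of `B_v`. -/
def locPlace (Q : HeightOneSpectrum (locB v F')) : Place K F' :=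
  ffPlaceOfVal (Q.valuation F')
    (fun a => Q.valuation_le_one (K := F') (⟨algebraMap K F' a, loc_const_mem v a⟩ : locB v F'))
    (by
      obtain ⟨π, hπ⟩ := Q.valuation_exists_uniformizer F'
      refine ⟨π⁻¹, ?_⟩
      rw [map_inv₀, hπ, ← exp_neg, neg_neg, ← exp_zero, exp_lt_exp]
      norm_num)

lemma locPlace_toValuationSubring (Q : HeightOneSpectrum (locB v F')) :
    (locPlace v Q).toValuationSubring = (Q.valuation F').valuationSubring := rfl

theorem loc_ord_locPlace (Q : HeightOneSpectrum (locB v F')) (f : F') :
    (locPlace v Q).ord f = -log (Q.valuation F' f) :=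
  ffOrd_eq_neg_log _ _ (locPlace_toValuationSubring v Q) (Q.valuation_exists_uniformizer F') f

/-- The place of a prime of `B_v` lies above `v`. -/
theorem locPlace_restrict (Q : HeightOneSpectrum (locB v F')) :
    (locPlace v Q).restrict F = v := by
  symm
  apply loc_place_eq_of_le
  intro a ha
  rw [Place.restrict_toValuationSubring, ValuationSubring.mem_comap,
    locPlace_toValuationSubring, Valuation.mem_valuationSubring_iff]
  exact Q.valuation_le_one (K := F')
    (⟨algebraMap F F' a, loc_algebraMap_mem v ⟨a, ha⟩⟩ : locB v F')

omit [FiniteDimensional F F'] [Algebra.IsSeparable F F'] in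
/-- `B_v ⊆ O_w` for every place `w` above `v`. -/
lemma locB_le [Algebra.IsIntegral F F'] (w : Place K F') (hw : w.restrict F = v) :
    ∀ b ∈ locB v F', b ∈ w.toValuationSubring := by
  intro b hb
  obtain ⟨p, hpm, hp⟩ : IsIntegral v.toValuationSubring b := hb
  have hmem : ∀ a : v.toValuationSubring, algebraMap v.toValuationSubring F' a ∈
      w.toValuationSubring.toSubring := by
    intro a
    have h1 : (a : F) ∈ (w.restrict F).toValuationSubring := by rw [hw]; exact a.2
    exact (Place.mem_restrict_iff w).1 h1
  let φ : v.toValuationSubring →+* w.toValuationSubring :=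
    (algebraMap v.toValuationSubring F').codRestrict w.toValuationSubring.toSubring hmem
  have hφ : (algebraMap w.toValuationSubring F').comp φ = algebraMap v.toValuationSubring F' := by
    ext y; rfl
  have hint' : IsIntegral w.toValuationSubring b := by
    refine ⟨p.map φ, hpm.map φ, ?_⟩
    rw [Polynomial.eval₂_map, hφ]
    exact hp
  obtain ⟨y, hy⟩ := IsIntegrallyClosed.algebraMap_eq_of_integral hint'
  rw [← hy]
  exact y.2

/-- The inclusion `B_v → O_w`. -/
def locIncl (w : Place K F') (hw : w.restrict F = v) : locB v F' →+* w.toValuationSubring :=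
  (algebraMap (locB v F') F').codRestrict w.toValuationSubring.toSubring
    (fun s => locB_le v w hw s.1 s.2)

omit [FiniteDimensional F F'] in
@[simp] lemma locIncl_coe (w : Place K F') (hw : w.restrict F = v) (s : locB v F') :
    ((locIncl v w hw s : w.toValuationSubring) : F') = (s : F') := rfl

lemma loc_mem_comap_iff (w : Place K F') (hw : w.restrict F = v) (s : locB v F') :
    s ∈ Ideal.comap (locIncl v w hw) (maximalIdeal w.toValuationSubring) ↔
      s = 0 ∨ 0 < w.ord (s : F') := by
  rw [Ideal.mem_comap]
  constructor
  · intro hs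
    by_cases h0 : s = 0
    · exact Or.inl h0
    right
    have hne : locIncl v w hw s ≠ 0 := by
      intro hz
      apply h0
      have h1 : ((locIncl v w hw s : w.toValuationSubring) : F') = 0 := by rw [hz]; rfl
      rw [locIncl_coe] at h1
      exact Subtype.ext h1
    have h2 := ffOrd_pos_of_mem_maximalIdeal w hs hne
    rwa [locIncl_coe] at h2
  · rintro (rfl | hs)
    · rw [map_zero]; exact Ideal.zero_mem _
    · obtain ⟨a, ha, hae⟩ := ffMem_maximalIdeal_of_ord_pos w hs
      have : a = locIncl v w hw s := Subtype.ext (by rw [hae, locIncl_coe])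
      rwa [← this]

/-- The prime of `B_v` attached to a place above `v`. -/
def locPrime (w : Place K F') (hw : w.restrict F = v) : HeightOneSpectrum (locB v F') where
  asIdeal := Ideal.comap (locIncl v w hw) (maximalIdeal w.toValuationSubring)
  isPrime := Ideal.comap_isPrime _ _
  ne_bot := by
    intro hbot
    obtain ⟨π, hπ⟩ := ffExistsIrreducible v
    have hπ0 : (π : F) ≠ 0 := by
      simpa [ne_eq, ZeroMemClass.coe_eq_zero] using hπ.ne_zero
    have hord : 0 < w.ord (algebraMap F F' (π : F)) := by
      rw [w.ord_restrict, hw, v.ord_coe_irreducible hπ, mul_one]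
      exact_mod_cast w.ramificationIndex_pos (F := F)
    have hmem : (⟨algebraMap F F' (π : F), loc_algebraMap_mem v π⟩ : locB v F') ∈
        Ideal.comap (locIncl v w hw) (maximalIdeal w.toValuationSubring) :=
      (loc_mem_comap_iff v w hw _).2 (Or.inr hord)
    rw [hbot, Ideal.mem_bot] at hmem
    have := congrArg Subtype.val hmem
    simp only [ZeroMemClass.coe_zero] at this
    exact hπ0 ((map_eq_zero (algebraMap F F')).1 this)

lemma loc_mem_locPrime_iff (w : Place K F') (hw : w.restrict F = v) (s : locB v F') :
    s ∈ (locPrime v w hw).asIdeal ↔ s = 0 ∨ 0 < w.ord (s : F') :=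
  loc_mem_comap_iff v w hw s

/-- `place ∘ prime = id` -/
theorem locPlace_locPrime (w : Place K F') (hw : w.restrict F = v) :
    locPlace v (locPrime v w hw) = w := by
  set Q := locPrime v w hw with hQ
  apply loc_place_eq_of_le
  intro f hf
  rw [locPlace_toValuationSubring, Valuation.mem_valuationSubring_iff] at hf
  have hout : ∀ d : locB v F', d ∉ Q.asIdeal → w.ord (d : F') = 0 := by
    intro d hd
    have h1 : 0 ≤ w.ord (d : F') := ffOrd_nonneg_of_mem w (locB_le v w hw d.1 d.2)
    have h2 : ¬ (0 < w.ord (d : F')) := fun hpos =>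
      hd ((loc_mem_locPrime_iff v w hw d).2 (Or.inr hpos))
    omega
  obtain ⟨n, d, hnd⟩ := Q.exists_primeCompl_mul_eq_of_integer f hf
  have hd0 : ((d : locB v F') : F') ≠ 0 := by
    have : (d : locB v F') ≠ 0 := by
      intro h0
      exact d.2 (by rw [h0]; exact zero_mem _)
    simpa using this
  have hf' : f = (n : F') / ((d : locB v F') : F') := by
    rw [eq_div_iff hd0]; exact hnd
  rw [hf']
  by_cases hn0 : (n : F') = 0
  · simp [hn0]
  apply ffMem_of_ord_nonneg
  rw [ffOrd_div w hn0 hd0, hout d d.2, sub_zero]
  exact ffOrd_nonneg_of_mem w (locB_le v w hw n.1 n.2)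

/-- `prime ∘ place = id` -/
theorem locPrime_locPlace (Q : HeightOneSpectrum (locB v F')) :
    locPrime v (locPlace v Q) (locPlace_restrict v Q) = Q := by
  apply HeightOneSpectrum.ext
  ext s
  rw [loc_mem_locPrime_iff, loc_ord_locPlace, ← Q.valuation_lt_one_iff_mem (K := F')]
  constructor
  · rintro (rfl | hs)
    · simp
    · have hne : Q.valuation F' (algebraMap (locB v F') F' s) ≠ 0 := by
        intro h0
        have : Q.valuation F' (s : F') = 0 := h0
        rw [this] at hs
        simp at hs
      have h1 : log (Q.valuation F' (algebraMap (locB v F') F' s)) < 0 := by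
        have : log (Q.valuation F' (s : F')) < 0 := by omega
        exact this
      have := (WithZero.log_lt_log hne one_ne_zero).1 (by simpa using h1)
      exact this
  · intro hs
    by_cases h0 : s = 0
    · exact Or.inl h0
    right
    have hsF : (s : F') ≠ 0 := by simpa using h0
    have hne : Q.valuation F' (s : F') ≠ 0 := (Valuation.ne_zero_iff _).2 hsF
    have := (WithZero.log_lt_log hne one_ne_zero).2 hs
    simp only [log_one] at this
    omega

/-- positivity of the order in terms of membership -/
lemma loc_ord_pos_iff_mem (Q : HeightOneSpectrum (locB v F')) (s : locB v F') (hs : s ≠ 0) :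
    0 < (locPlace v Q).ord (s : F') ↔ s ∈ Q.asIdeal := by
  have h := loc_mem_locPrime_iff v (locPlace v Q) (locPlace_restrict v Q) s
  rw [locPrime_locPlace] at h
  rw [h]
  constructor
  · intro h1; exact Or.inr h1
  · rintro (h1 | h1)
    · exact absurd h1 hs
    · exact h1

/-- the places above `v` are exactly the places of the primes of `B_v` -/
theorem loc_exists_prime (w : Place K F') (hw : w.restrict F = v) :
    ∃ Q : HeightOneSpectrum (locB v F'), locPlace v Q = w :=
  ⟨locPrime v w hw, locPlace_locPrime v w hw⟩

theorem locPlace_injective : Function.Injective (locPlace (F' := F') v) := by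
  intro Q Q' h
  have h1 := locPrime_locPlace v Q
  have h2 := locPrime_locPlace v Q'
  rw [← h1, ← h2]
  congr 1

end Fermat.Agent.HeckeBar

end
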