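/-
Item 74 (HECKE-BAR), generic block GEN, part 2 (helper15): the NORM FORMULA.

For a finite extension `F'/F` of function fields in characteristic zero, all of whose places
have degree one:  `ord_v (N_{F'/F} f) = ∑_{w | v} ord_w f`.
Route: `Ideal.relNorm` on the local Dedekind pair `O_v ⊆ B_v` of `LocDict.lean`.
-/
import Mathlib
import Fermat.Agent.HeckeBar.LocDict

set_option autoImplicit false
set_option linter.style.haveILetI false
set_option linter.unusedSectionVars false

noncomputable section

namespace Fermat.Agent.HeckeBar

open AlgebraicCurve IsDedekindDomain WithZero IsLocalRing Fermat.Agent.S24lib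

section Bridge

variable {R : Type*} [CommRing R] [IsDedekindDomain R] {L : Type*} [Field L] [Algebra R L]
  [IsFractionRing R L]

/-- the count of a principal ideal is minus the log of the valuation of a generator -/
lemma nf_count_span (Q : HeightOneSpectrum R) {b : R} (hb : b ≠ 0) :
    FractionalIdeal.count L Q ((Ideal.span {b} : Ideal R) : FractionalIdeal (nonZeroDivisors R) L)
      = -log (Q.valuation L (algebraMap R L b)) := by
  classical
  have hne : (Ideal.span {b} : Ideal R) ≠ 0 := by
    rw [Ne, Ideal.zero_eq_bot, Ideal.span_singleton_eq_bot]; exact hb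
  rw [FractionalIdeal.count_coe L Q hne, Q.valuation_of_algebraMap, Q.intValuation_if_neg hb,
    log_exp, neg_neg]

end Bridge

variable {K F F' : Type*} [Field K] [Field F] [Field F'] [Algebra K F] [Algebra K F']
  [Algebra F F'] [IsScalarTower K F F'] [FiniteDimensional F F'] [Algebra.IsSeparable F F']

variable (v : Place K F)

/-- orders at `v` of elements of `O_v` as counts -/
lemma nf_ord_eq_count (a : v.toValuationSubring) (ha : a ≠ 0) :
    v.ord (a : F) = FractionalIdeal.count F v.heightOneSpectrum
      ((Ideal.span {a} : Ideal v.toValuationSubring) :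
        FractionalIdeal (nonZeroDivisors v.toValuationSubring) F) := by
  rw [nf_count_span v.heightOneSpectrum ha]
  rfl

/-- orders at the place of `Q` of elements of `B_v` as counts -/
lemma nf_ord_locPlace_eq_count (Q : HeightOneSpectrum (locB v F')) (b : locB v F') (hb : b ≠ 0) :
    (locPlace v Q).ord (b : F') = FractionalIdeal.count F' Q
      ((Ideal.span {b} : Ideal (locB v F')) :
        FractionalIdeal (nonZeroDivisors (locB v F')) F') := by
  rw [nf_count_span Q hb, loc_ord_locPlace]
  rfl

/-- every nonzero prime of `B_v` lies over the maximal ideal of `O_v` -/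
theorem nf_liesOver (Q : HeightOneSpectrum (locB v F')) :
    Q.asIdeal.LiesOver (maximalIdeal v.toValuationSubring) := by
  refine ⟨?_⟩
  symm
  have hprime : (Q.asIdeal.under v.toValuationSubring).IsPrime := Ideal.comap_isPrime _ _
  have hne : Q.asIdeal.under v.toValuationSubring ≠ ⊥ := by
    intro hbot
    obtain ⟨π, hπ⟩ := ffExistsIrreducible v
    have hπ0 : (π : F) ≠ 0 := by
      simpa [ne_eq, ZeroMemClass.coe_eq_zero] using hπ.ne_zero
    have hπ0' : algebraMap v.toValuationSubring (locB v F') π ≠ 0 := by
      intro h0
      have h1 := congrArg (fun z : locB v F' => (z : F')) h0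
      simp only [ZeroMemClass.coe_zero] at h1
      exact hπ0 ((map_eq_zero (algebraMap F F')).1 h1)
    have hord : 0 < (locPlace v Q).ord (algebraMap F F' (π : F)) := by
      rw [(locPlace v Q).ord_restrict, locPlace_restrict, v.ord_coe_irreducible hπ, mul_one]
      exact_mod_cast (locPlace v Q).ramificationIndex_pos (F := F)
    have hmem : algebraMap v.toValuationSubring (locB v F') π ∈ Q.asIdeal :=
      (loc_ord_pos_iff_mem v Q _ hπ0').1 hord
    have : π ∈ Q.asIdeal.under v.toValuationSubring := hmem
    rw [hbot, Ideal.mem_bot] at this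
    exact hπ.ne_zero this
  have hmax : (Q.asIdeal.under v.toValuationSubring).IsMaximal := hprime.isMaximal hne
  exact IsLocalRing.eq_maximalIdeal hmax

omit [FiniteDimensional F F'] [Algebra.IsSeparable F F'] [Algebra K F] [Algebra F F']
  [IsScalarTower K F F'] in
/-- a place of degree one has residue field `K` -/
lemma nf_residue_surjective (w : Place K F') (hw : w.deg = 1) :
    Function.Surjective (algebraMap K w.ResidueField) := by
  have hfin : FiniteDimensional K w.ResidueField :=
    Module.finite_of_finrank_pos (by rw [show Module.finrank K w.ResidueField = 1 from hw]; norm_num)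
  have hinj : Function.Injective (Algebra.linearMap K w.ResidueField) :=
    (algebraMap K w.ResidueField).injective
  have hrk : Module.finrank K K = Module.finrank K w.ResidueField := by
    rw [Module.finrank_self]; exact hw.symm
  exact (LinearMap.injective_iff_surjective_of_finrank_eq_finrank hrk).1 hinj

set_option synthInstance.maxHeartbeats 400000 in
set_option maxHeartbeats 1000000 in
/-- the inertia degree of a prime of `B_v` whose place has degree one is one -/
theorem nf_inertiaDeg_eq_one (Q : HeightOneSpectrum (locB v F'))
    (hdeg : (locPlace v Q).deg = 1) :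
    Q.asIdeal.inertiaDeg v.toValuationSubring = 1 := by
  have hlo : Q.asIdeal.LiesOver (maximalIdeal v.toValuationSubring) := nf_liesOver v Q
  have hQmax : Q.asIdeal.IsMaximal := Q.isMaximal
  rw [Ideal.inertiaDeg_eq_of_isMaximal (maximalIdeal v.toValuationSubring) Q.asIdeal]
  set w := locPlace v Q with hw
  have hwv : w.restrict F = v := locPlace_restrict v Q
  have hsurj : Function.Surjective
      (algebraMap (v.toValuationSubring ⧸ maximalIdeal v.toValuationSubring)
        (locB v F' ⧸ Q.asIdeal)) := by
    intro z
    obtain ⟨s, rfl⟩ := Ideal.Quotient.mk_surjective z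
    obtain ⟨c, hc⟩ := nf_residue_surjective w hdeg (ffRes w (locIncl v w hwv s))
    have hcmem : algebraMap K F' c ∈ locB v F' := loc_const_mem v c
    have hsb : s - ⟨algebraMap K F' c, hcmem⟩ ∈ Q.asIdeal := by
      have h1 : locIncl v w hwv s - algebraMap K w.toValuationSubring c
          ∈ maximalIdeal w.toValuationSubring := by
        rw [← ffRes_eq_zero_iff, ffRes, map_sub, sub_eq_zero]
        exact hc.symm
      have h2 : locIncl v w hwv (s - ⟨algebraMap K F' c, hcmem⟩)
          = locIncl v w hwv s - algebraMap K w.toValuationSubring c := by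
        rw [map_sub]; rfl
      have h3 : s - ⟨algebraMap K F' c, hcmem⟩ ∈ (locPrime v w hwv).asIdeal := by
        show _ ∈ Ideal.comap (locIncl v w hwv) _
        rw [Ideal.mem_comap, h2]; exact h1
      have h4 : locPrime v w hwv = Q := locPrime_locPlace v Q
      rwa [h4] at h3
    refine ⟨Ideal.Quotient.mk _ (algebraMap K v.toValuationSubring c), ?_⟩
    symm
    rw [← sub_eq_zero]
    have : (Ideal.Quotient.mk Q.asIdeal) s -
        (algebraMap (v.toValuationSubring ⧸ maximalIdeal v.toValuationSubring)
          (locB v F' ⧸ Q.asIdeal))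
        ((Ideal.Quotient.mk (maximalIdeal v.toValuationSubring))
          (algebraMap K v.toValuationSubring c))
        = Ideal.Quotient.mk Q.asIdeal (s - ⟨algebraMap K F' c, hcmem⟩) := by
      rw [map_sub]
      congr 1
      rw [Ideal.Quotient.algebraMap_mk_of_liesOver]
      congr 1
      apply Subtype.ext
      show algebraMap F F' (algebraMap K F c) = algebraMap K F' c
      rw [← IsScalarTower.algebraMap_apply]
    rw [this, Ideal.Quotient.eq_zero_iff_mem]
    exact hsb
  have hinj : Function.Injective
      (algebraMap (v.toValuationSubring ⧸ maximalIdeal v.toValuationSubring)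
        (locB v F' ⧸ Q.asIdeal)) := by
    let _ : Field (v.toValuationSubring ⧸ maximalIdeal v.toValuationSubring) :=
      Ideal.Quotient.field _
    have : Nontrivial (locB v F' ⧸ Q.asIdeal) :=
      Ideal.Quotient.nontrivial_iff.2 Q.isPrime.ne_top
    exact (algebraMap (v.toValuationSubring ⧸ maximalIdeal v.toValuationSubring)
      (locB v F' ⧸ Q.asIdeal)).injective
  have : Nontrivial (v.toValuationSubring ⧸ maximalIdeal v.toValuationSubring) :=
    Ideal.Quotient.nontrivial_iff.2 (IsLocalRing.maximalIdeal.isMaximal _).ne_top
  rw [← (LinearEquiv.ofBijective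
    (Algebra.linearMap (v.toValuationSubring ⧸ maximalIdeal v.toValuationSubring)
      (locB v F' ⧸ Q.asIdeal)) ⟨hinj, hsurj⟩).finrank_eq,
    Module.finrank_self]

section Count

variable [CharZero F]

/-- **count of the relative norm**: `ord_v (N I) = ∑_Q ord_Q I` (all inertia degrees are one). -/
theorem nf_count_relNorm (hdeg' : ∀ w : Place K F', w.deg = 1)
    (s : Finset (HeightOneSpectrum (locB v F'))) (hs : ∀ Q, Q ∈ s)
    (I : Ideal (locB v F')) (hI : I ≠ 0) :
    FractionalIdeal.count F v.heightOneSpectrum
        ((Ideal.relNorm v.toValuationSubring I : Ideal v.toValuationSubring) :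
          FractionalIdeal (nonZeroDivisors v.toValuationSubring) F)
      = ∑ Q ∈ s, FractionalIdeal.count F' Q
          (I : FractionalIdeal (nonZeroDivisors (locB v F')) F') := by
  classical
  induction I using UniqueFactorizationMonoid.induction_on_prime with
  | h₁ => exact absurd rfl hI
  | h₂ x hx =>
    have hx' : x = ⊤ := Ideal.isUnit_iff.1 hx
    subst hx'
    rw [Ideal.relNorm_top, FractionalIdeal.coeIdeal_top, FractionalIdeal.coeIdeal_top,
      FractionalIdeal.count_one]
    symm
    apply Finset.sum_eq_zero
    intro Q _
    exact FractionalIdeal.count_one F' Q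
  | h₃ J Q₀ hJ hQ₀ ih =>
    have hQ₀ne : Q₀ ≠ ⊥ := hQ₀.ne_zero
    have hQ₀p : Q₀.IsPrime := Ideal.isPrime_of_prime hQ₀
    let Q₀' : HeightOneSpectrum (locB v F') := ⟨Q₀, hQ₀p, hQ₀ne⟩
    have hlo : Q₀.LiesOver (maximalIdeal v.toValuationSubring) := nf_liesOver v Q₀'
    have hQmax : Q₀.IsMaximal := Q₀'.isMaximal
    have hrel : Ideal.relNorm v.toValuationSubring Q₀ = maximalIdeal v.toValuationSubring := by
      rw [Ideal.relNorm_eq_pow_of_isMaximal Q₀ (maximalIdeal v.toValuationSubring),
        show Q₀.inertiaDeg v.toValuationSubring = 1 from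
          nf_inertiaDeg_eq_one v Q₀' (hdeg' _), pow_one]
    have hJne : (Ideal.relNorm v.toValuationSubring J) ≠ ⊥ := by
      rw [Ne, Ideal.relNorm_eq_bot_iff]; exact hJ
    have hmne : maximalIdeal v.toValuationSubring ≠ ⊥ := v.heightOneSpectrum.ne_bot
    rw [map_mul, hrel, FractionalIdeal.coeIdeal_mul, FractionalIdeal.coeIdeal_mul,
      FractionalIdeal.count_mul F _ (FractionalIdeal.coeIdeal_ne_zero.2 hmne)
        (FractionalIdeal.coeIdeal_ne_zero.2 hJne), ih hJ]
    have h1 : FractionalIdeal.count F v.heightOneSpectrum
        ((maximalIdeal v.toValuationSubring : Ideal v.toValuationSubring) :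
          FractionalIdeal (nonZeroDivisors v.toValuationSubring) F) = 1 :=
      FractionalIdeal.count_self F v.heightOneSpectrum
    rw [h1]
    have h2 : ∀ Q ∈ s, FractionalIdeal.count F' Q
        ((Q₀ : Ideal (locB v F')) : FractionalIdeal (nonZeroDivisors (locB v F')) F') *
          1 + FractionalIdeal.count F' Q
            ((J : Ideal (locB v F')) : FractionalIdeal (nonZeroDivisors (locB v F')) F')
        = FractionalIdeal.count F' Q
          (((Q₀ : Ideal (locB v F')) : FractionalIdeal (nonZeroDivisors (locB v F')) F') *
            ((J : Ideal (locB v F')) : FractionalIdeal (nonZeroDivisors (locB v F')) F')) := by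
      intro Q _
      rw [mul_one, FractionalIdeal.count_mul F' Q (FractionalIdeal.coeIdeal_ne_zero.2 hQ₀ne)
        (FractionalIdeal.coeIdeal_ne_zero.2 hJ)]
    rw [← Finset.sum_congr rfl h2, Finset.sum_add_distrib]
    congr 1
    have h3 : ∀ Q ∈ s, FractionalIdeal.count F' Q
        ((Q₀ : Ideal (locB v F')) : FractionalIdeal (nonZeroDivisors (locB v F')) F') * 1
        = if Q = Q₀' then 1 else 0 := by
      intro Q _
      rw [mul_one]
      have := FractionalIdeal.count_maximal F' Q Q₀'
      rw [this]
      by_cases h : Q = Q₀'
      · rw [if_pos h, if_pos h.symm]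
      · rw [if_neg h, if_neg (fun h' => h h'.symm)]
    rw [Finset.sum_congr rfl h3, Finset.sum_ite_eq' s Q₀', if_pos (hs Q₀')]

/-- norm formula for elements of `B_v` -/
theorem nf_ord_norm_of_mem (hdeg' : ∀ w : Place K F', w.deg = 1)
    (s : Finset (HeightOneSpectrum (locB v F'))) (hs : ∀ Q, Q ∈ s)
    (b : locB v F') (hb : b ≠ 0) :
    v.ord (Algebra.norm F (b : F')) = ∑ Q ∈ s, (locPlace v Q).ord (b : F') := by
  have hN : algebraMap v.toValuationSubring F (Algebra.intNorm v.toValuationSubring (locB v F') b)
      = Algebra.norm F (algebraMap (locB v F') F' b) :=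
    Algebra.algebraMap_intNorm (A := v.toValuationSubring) (K := F) (L := F') (B := locB v F') b
  have hN0 : Algebra.intNorm v.toValuationSubring (locB v F') b ≠ 0 := by
    intro h0
    rw [h0, map_zero] at hN
    have h1 : (b : F') = 0 := Algebra.norm_eq_zero_iff.1 hN.symm
    exact hb (Subtype.ext h1)
  have hspan : (Ideal.span {b} : Ideal (locB v F')) ≠ 0 := by
    rw [Ne, Ideal.zero_eq_bot, Ideal.span_singleton_eq_bot]; exact hb
  calc v.ord (Algebra.norm F (b : F'))
      = v.ord ((Algebra.intNorm v.toValuationSubring (locB v F') b : v.toValuationSubring) : F) := by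
        rw [← show algebraMap (locB v F') F' b = (b : F') from rfl, ← hN]; rfl
    _ = FractionalIdeal.count F v.heightOneSpectrum
          ((Ideal.relNorm v.toValuationSubring (Ideal.span {b}) : Ideal v.toValuationSubring) :
            FractionalIdeal (nonZeroDivisors v.toValuationSubring) F) := by
        rw [nf_ord_eq_count v _ hN0, Ideal.relNorm_singleton]
    _ = ∑ Q ∈ s, FractionalIdeal.count F' Q
          ((Ideal.span {b} : Ideal (locB v F')) :
            FractionalIdeal (nonZeroDivisors (locB v F')) F') :=
        nf_count_relNorm v hdeg' s hs _ hspan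
    _ = ∑ Q ∈ s, (locPlace v Q).ord (b : F') :=
        Finset.sum_congr rfl fun Q _ => (nf_ord_locPlace_eq_count v Q b hb).symm

/-- norm formula, in terms of the primes of `B_v` -/
theorem nf_ord_norm (hdeg' : ∀ w : Place K F', w.deg = 1)
    (s : Finset (HeightOneSpectrum (locB v F'))) (hs : ∀ Q, Q ∈ s)
    (f : F') (hf : f ≠ 0) :
    v.ord (Algebra.norm F f) = ∑ Q ∈ s, (locPlace v Q).ord f := by
  obtain ⟨a, b, hb, rfl⟩ := IsFractionRing.div_surjective (A := locB v F') f
  have hb0 : (b : locB v F') ≠ 0 := nonZeroDivisors.ne_zero hb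
  have hbF : algebraMap (locB v F') F' b ≠ 0 := by
    intro h0; exact hb0 (Subtype.ext h0)
  have ha0 : a ≠ 0 := by
    rintro rfl
    rw [map_zero, zero_div] at hf
    exact hf rfl
  have haF : algebraMap (locB v F') F' a ≠ 0 := by
    intro h0; exact ha0 (Subtype.ext h0)
  have hNa : Algebra.norm F (algebraMap (locB v F') F' a) ≠ 0 := Algebra.norm_ne_zero_iff.2 haF
  have hNb : Algebra.norm F (algebraMap (locB v F') F' b) ≠ 0 := Algebra.norm_ne_zero_iff.2 hbF
  have hdiv : Algebra.norm F (algebraMap (locB v F') F' a / algebraMap (locB v F') F' b)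
      = Algebra.norm F (algebraMap (locB v F') F' a) /
        Algebra.norm F (algebraMap (locB v F') F' b) := by
    rw [eq_div_iff hNb, ← map_mul, div_mul_cancel₀ _ hbF]
  rw [hdiv, ffOrd_div v hNa hNb]
  have h1 := nf_ord_norm_of_mem v hdeg' s hs a ha0
  have h2 := nf_ord_norm_of_mem v hdeg' s hs b hb0
  have h1' : v.ord (Algebra.norm F (algebraMap (locB v F') F' a))
      = ∑ Q ∈ s, (locPlace v Q).ord (algebraMap (locB v F') F' a) := h1
  have h2' : v.ord (Algebra.norm F (algebraMap (locB v F') F' b))
      = ∑ Q ∈ s, (locPlace v Q).ord (algebraMap (locB v F') F' b) := h2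
  rw [h1', h2', ← Finset.sum_sub_distrib]
  refine Finset.sum_congr rfl fun Q _ => ?_
  rw [ffOrd_div _ haF hbF]

end Count

section Push

variable [HasPrincipalDivisors K F']

/-- there are finitely many primes in `B_v` -/
theorem nf_finite_primes : Finite (HeightOneSpectrum (locB v F')) := by
  have hfin : {w : Place K F' | w.restrict F = v}.Finite := Place.restrict_fiber_finite v
  have : Finite {w : Place K F' | w.restrict F = v} := hfin
  exact Finite.of_injective
    (fun Q : HeightOneSpectrum (locB v F') =>
      (⟨locPlace v Q, locPlace_restrict v Q⟩ : {w : Place K F' | w.restrict F = v}))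
    (fun Q Q' h => locPlace_injective v (congrArg Subtype.val h))

/-- the Prelude inertia degree is one when all places of `F'` have degree one -/
lemma nf_inertiaDeg_place (hdeg' : ∀ w : Place K F', w.deg = 1) (w : Place K F') :
    w.inertiaDeg F = 1 := by
  have h := w.deg_restrict_mul_inertiaDeg (F := F)
  rw [hdeg' w] at h
  exact Nat.eq_one_of_mul_eq_one_left h

/-- the pushforward, in terms of the primes of `B_v` -/
theorem nf_pushforward_apply (hdeg' : ∀ w : Place K F', w.deg = 1)
    (s : Finset (HeightOneSpectrum (locB v F'))) (hs : ∀ Q, Q ∈ s) (D : Divisor K F') :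
    Divisor.pushforward F D v = ∑ Q ∈ s, D (locPlace v Q) := by
  classical
  induction D using Finsupp.induction_linear with
  | zero => simp
  | add D E hD hE =>
    rw [map_add, Finsupp.add_apply, hD, hE, ← Finset.sum_add_distrib]
    rfl
  | single w n =>
    rw [Divisor.pushforward_single, nf_inertiaDeg_place hdeg' w, Nat.cast_one, mul_one]
    by_cases hw : w.restrict F = v
    · rw [hw, Finsupp.single_eq_same]
      have h1 : ∀ Q ∈ s, (Finsupp.single w n : Divisor K F') (locPlace v Q)
          = if Q = locPrime v w hw then n else 0 := by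
        intro Q _
        by_cases hQ : Q = locPrime v w hw
        · rw [if_pos hQ, hQ, locPlace_locPrime, Finsupp.single_eq_same]
        · rw [if_neg hQ]
          apply Finsupp.single_eq_of_ne'
          intro h
          apply hQ
          have h2 := locPrime_locPlace v Q
          rw [← h2]
          congr 1
          exact h.symm
      rw [Finset.sum_congr rfl h1, Finset.sum_ite_eq' s, if_pos (hs _)]
    · rw [Finsupp.single_eq_of_ne' (fun h => hw h)]
      symm
      apply Finset.sum_eq_zero
      intro Q _
      apply Finsupp.single_eq_of_ne'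
      intro h
      apply hw
      rw [h, locPlace_restrict]

/-- **The norm formula** `ord_v (N f) = ∑_{w | v} ord_w f` for a finite extension of function
fields in characteristic zero whose places all have degree one. -/
theorem loc_normFormula [CharZero F] (hdeg' : ∀ w : Place K F', w.deg = 1) :
    Divisor.PushforwardNormFormula K F F' := by
  classical
  intro f hf D hD v
  haveI : Finite (HeightOneSpectrum (locB v F')) := nf_finite_primes v
  letI : Fintype (HeightOneSpectrum (locB v F')) := Fintype.ofFinite _
  rw [nf_pushforward_apply v hdeg' Finset.univ (fun Q => Finset.mem_univ Q) D,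
    nf_ord_norm v hdeg' Finset.univ (fun Q => Finset.mem_univ Q) f hf]
  exact Finset.sum_congr rfl fun Q _ => hD _

end Push

end Fermat.Agent.HeckeBar

end
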