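/-
Item 74 (HECKE-BAR), generic part (helper2): base change for push/pull of divisors.

For a commutative square of finite extensions of function fields over `K`

      F₀ --β--> F₁
      |α'       |a
      v         v
      F₂ --b--> M            (a ∘ β = b ∘ α')

with norm compatibility `N_{M/F₁}(b g) = β (N_{F₂/F₀} g)` (true when `M = F₁ ⊗_{F₀} F₂`),
norm formulas for `α'` and `a`, and approximation in `F₂`:
      β^* ∘ α'_* = a_* ∘ b^*   on `Divisor K F₂`.
Proof: both sides agree on principal divisors and are local over `F₀`.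
-/
import Mathlib
import Fermat.Prelude.Def_AlgebraicCurve_Correspondence

set_option autoImplicit false

open AlgebraicCurve

namespace Fermat.Agent.HeckeBar

variable {K : Type*} [Field K]

section Basic

variable {F F' : Type*} [Field F] [Field F'] [Algebra K F] [Algebra K F']

lemma mem_restrictAlong_iff (φ : F →ₐ[K] F') (hφ : φ.toRingHom.IsIntegral) (w : Place K F')
    (f : F) : f ∈ (w.restrictAlong φ hφ).toValuationSubring ↔ φ f ∈ w.toValuationSubring :=
  Iff.rfl

open Classical in
lemma pushforwardAlong_apply (φ : F →ₐ[K] F') (hφ : φ.toRingHom.IsIntegral)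
    (D : Divisor K F') (v : Place K F) :
    Divisor.pushforwardAlong φ hφ D v =
      D.sum fun w n => if w.restrictAlong φ hφ = v then n * (w.inertiaDegAlong φ hφ : ℤ) else 0 := by
  induction D using Finsupp.induction with
  | zero => simp
  | single_add w n D hw hn ih =>
    rw [map_add, Finsupp.add_apply, ih, Divisor.pushforwardAlong_single,
      Finsupp.sum_add_index' (by intro w; simp) (by intro w m n; split_ifs <;> simp [add_mul]),
      Finsupp.sum_single_index (by simp), Finsupp.single_apply]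

/-- locality of the pushforward -/
lemma pushforwardAlong_apply_eq_zero (φ : F →ₐ[K] F') (hφ : φ.toRingHom.IsIntegral)
    (D : Divisor K F') (v : Place K F)
    (h : ∀ w : Place K F', w.restrictAlong φ hφ = v → D w = 0) :
    Divisor.pushforwardAlong φ hφ D v = 0 := by
  classical
  rw [pushforwardAlong_apply]
  apply Finset.sum_eq_zero
  intro w _
  show (if w.restrictAlong φ hφ = v then D w * (w.inertiaDegAlong φ hφ : ℤ) else 0) = 0
  split_ifs with hw
  · rw [h w hw, zero_mul]
  · rfl

end Basic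

section Comp

variable {F F' F'' : Type*} [Field F] [Field F'] [Field F''] [Algebra K F] [Algebra K F']
  [Algebra K F'']

lemma restrictAlong_comp (φ : F →ₐ[K] F') (ψ : F' →ₐ[K] F'') (hφ : φ.toRingHom.IsIntegral)
    (hψ : ψ.toRingHom.IsIntegral) (hψφ : (ψ.comp φ).toRingHom.IsIntegral) (w : Place K F'') :
    (w.restrictAlong ψ hψ).restrictAlong φ hφ = w.restrictAlong (ψ.comp φ) hψφ := by
  apply Place.ext
  ext f
  rfl

end Comp

section Principal

variable {F F' : Type*} [Field F] [Field F'] [Algebra K F] [Algebra K F']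

/-- the norm of `F'` over `F` along `φ` -/
noncomputable def normAlong (φ : F →ₐ[K] F') : F' →* F :=
  letI := algebraAlong φ
  Algebra.norm F

lemma pullbackAlong_apply_eq_ord [HasPrincipalDivisors K F'] (φ : F →ₐ[K] F')
    (hφ : φ.toRingHom.IsIntegral) {f : F} {D : Divisor K F} (hD : ∀ v, D v = v.ord f)
    (w : Place K F') : Divisor.pullbackAlong φ hφ D w = w.ord (φ f) := by
  rw [Divisor.pullbackAlong_apply, hD, ← Place.ord_restrictAlong]

lemma pushforwardAlong_apply_eq_ord (φ : F →ₐ[K] F') (hφ : φ.toRingHom.IsIntegral)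
    (hfin : FiniteAlong K φ) (hN : NormFormulaAlong K φ hfin) {f : F'} (hf : f ≠ 0)
    {D : Divisor K F'} (hD : ∀ w, D w = w.ord f) (v : Place K F) :
    Divisor.pushforwardAlong φ hφ D v = v.ord (normAlong φ f) := by
  letI := algebraAlong φ
  haveI := isScalarTower_along φ
  haveI := isIntegral_along φ hφ
  haveI : Module.Finite F F' := hfin
  exact hN f hf D hD v

/-- locality of the pullback -/
lemma pullbackAlong_apply_eq_zero [HasPrincipalDivisors K F'] (φ : F →ₐ[K] F')
    (hφ : φ.toRingHom.IsIntegral) (D : Divisor K F) (w : Place K F')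
    (h : D (w.restrictAlong φ hφ) = 0) : Divisor.pullbackAlong φ hφ D w = 0 := by
  rw [Divisor.pullbackAlong_apply, h, mul_zero]

end Principal

section BaseChange

variable {F₀ F₁ F₂ M : Type*} [Field F₀] [Field F₁] [Field F₂] [Field M]
  [Algebra K F₀] [Algebra K F₁] [Algebra K F₂] [Algebra K M]

/-- norm compatibility in a commutative square (holds when `M = F₁ ⊗_{F₀} F₂`) -/
def NormCompat (β : F₀ →ₐ[K] F₁) (α' : F₀ →ₐ[K] F₂) (a : F₁ →ₐ[K] M) (b : F₂ →ₐ[K] M) : Prop :=
  ∀ g : F₂, normAlong a (b g) = β (normAlong α' g)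

/-- approximation: a function with a simple zero at `v` and no zero or pole at the other places
over the same place of `F₀` -/
def ApproxAlong (α' : F₀ →ₐ[K] F₂) (hα' : α'.toRingHom.IsIntegral) : Prop :=
  ∀ v : Place K F₂, ∃ g : F₂, g ≠ 0 ∧ v.ord g = 1 ∧
    ∀ v' : Place K F₂, v' ≠ v → v'.restrictAlong α' hα' = v.restrictAlong α' hα' → v'.ord g = 0

variable (β : F₀ →ₐ[K] F₁) (α' : F₀ →ₐ[K] F₂) (a : F₁ →ₐ[K] M) (b : F₂ →ₐ[K] M)
  (hβ : β.toRingHom.IsIntegral) (hα' : α'.toRingHom.IsIntegral)
  (ha : a.toRingHom.IsIntegral) (hb : b.toRingHom.IsIntegral)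
  [HasPrincipalDivisors K F₁] [HasPrincipalDivisors K F₂] [HasPrincipalDivisors K M]

/-- `β^* ∘ α'_*` -/
noncomputable def pullPush : Divisor K F₂ →+ Divisor K F₁ :=
  (Divisor.pullbackAlong β hβ).comp (Divisor.pushforwardAlong α' hα')

/-- `a_* ∘ b^*` -/
noncomputable def pushPull : Divisor K F₂ →+ Divisor K F₁ :=
  (Divisor.pushforwardAlong a ha).comp (Divisor.pullbackAlong b hb)

include hb in
omit [HasPrincipalDivisors K F₁] [HasPrincipalDivisors K F₂] [HasPrincipalDivisors K M] in
lemma restrict_square (hsq : a.comp β = b.comp α') (w : Place K M) :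
    (w.restrictAlong a ha).restrictAlong β hβ = (w.restrictAlong b hb).restrictAlong α' hα' := by
  apply Place.ext
  ext f
  show a (β f) ∈ w.toValuationSubring ↔ b (α' f) ∈ w.toValuationSubring
  have := congrArg (fun φ : F₀ →ₐ[K] M => φ f) hsq
  simp only [AlgHom.comp_apply] at this
  rw [this]

/-- locality of `β^* α'_*` -/
lemma pullPush_apply_eq_zero (D : Divisor K F₂) (u : Place K F₁)
    (h : ∀ v : Place K F₂, v.restrictAlong α' hα' = u.restrictAlong β hβ → D v = 0) :
    pullPush β α' hβ hα' D u = 0 := by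
  unfold pullPush
  rw [AddMonoidHom.comp_apply]
  apply pullbackAlong_apply_eq_zero
  exact pushforwardAlong_apply_eq_zero α' hα' D _ h

/-- locality of `a_* b^*` -/
lemma pushPull_apply_eq_zero (hsq : a.comp β = b.comp α') (D : Divisor K F₂) (u : Place K F₁)
    (h : ∀ v : Place K F₂, v.restrictAlong α' hα' = u.restrictAlong β hβ → D v = 0) :
    pushPull a b ha hb D u = 0 := by
  unfold pushPull
  rw [AddMonoidHom.comp_apply]
  apply pushforwardAlong_apply_eq_zero
  intro w hw
  apply pullbackAlong_apply_eq_zero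
  apply h
  rw [← restrict_square β α' a b hβ hα' ha hb hsq w, hw]

/-- the two composites agree on principal divisors -/
lemma pullPush_eq_pushPull_of_principal
    (hfinα : FiniteAlong K α') (hNα : NormFormulaAlong K α' hfinα)
    (hfina : FiniteAlong K a) (hNa : NormFormulaAlong K a hfina)
    (hnc : NormCompat β α' a b) {g : F₂} (hg : g ≠ 0) {D : Divisor K F₂}
    (hD : ∀ v, D v = v.ord g) :
    pullPush β α' hβ hα' D = pushPull a b ha hb D := by
  ext u
  have h1 : pullPush β α' hβ hα' D u = u.ord (β (normAlong α' g)) := by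
    unfold pullPush
    rw [AddMonoidHom.comp_apply]
    exact pullbackAlong_apply_eq_ord β hβ
      (fun v => pushforwardAlong_apply_eq_ord α' hα' hfinα hNα hg hD v) u
  have h2 : pushPull a b ha hb D u = u.ord (normAlong a (b g)) := by
    unfold pushPull
    rw [AddMonoidHom.comp_apply]
    exact pushforwardAlong_apply_eq_ord a ha hfina hNa
      ((map_ne_zero b).mpr hg) (fun w => pullbackAlong_apply_eq_ord b hb hD w) u
  rw [h1, h2, hnc g]

/-- **Base change**: `β^* ∘ α'_* = a_* ∘ b^*`. -/
theorem pullPush_eq_pushPull (hsq : a.comp β = b.comp α')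
    (hfinα : FiniteAlong K α') (hNα : NormFormulaAlong K α' hfinα)
    (hfina : FiniteAlong K a) (hNa : NormFormulaAlong K a hfina)
    (hnc : NormCompat β α' a b) (happ : ApproxAlong α' hα') :
    pullPush β α' hβ hα' = pushPull a b ha hb := by
  classical
  apply Finsupp.addHom_ext
  intro v n
  -- reduce to `n = 1`
  have hn : Finsupp.single v n = n • (Finsupp.single v (1 : ℤ) : Divisor K F₂) := by
    rw [Finsupp.smul_single, smul_eq_mul, mul_one]
  rw [hn, map_zsmul, map_zsmul]
  congr 1
  obtain ⟨g, hg0, hgv, hg⟩ := happ v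
  obtain ⟨D, hD, -⟩ := HasPrincipalDivisors.exists_divisor (K := K) g hg0
  have hprin := pullPush_eq_pushPull_of_principal β α' a b hβ hα' ha hb hfinα hNα hfina hNa
    hnc hg0 hD
  set R : Divisor K F₂ := D - Finsupp.single v 1 with hR
  have hDR : D = Finsupp.single v 1 + R := by rw [hR]; abel
  have hRv : ∀ v' : Place K F₂, v'.restrictAlong α' hα' = v.restrictAlong α' hα' → R v' = 0 := by
    intro v' hv'
    rw [hR, Finsupp.sub_apply, hD]
    by_cases h : v' = v
    · rw [h, hgv, Finsupp.single_eq_same, sub_self]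
    · rw [hg v' h hv', Finsupp.single_eq_of_ne (fun h' => h h'), sub_self]
  ext u
  by_cases hu : u.restrictAlong β hβ = v.restrictAlong α' hα'
  · have e1 : pullPush β α' hβ hα' R u = 0 :=
      pullPush_apply_eq_zero β α' hβ hα' R u (fun v' hv' => hRv v' (hv'.trans hu))
    have e2 : pushPull a b ha hb R u = 0 :=
      pushPull_apply_eq_zero β α' a b hβ hα' ha hb hsq R u (fun v' hv' => hRv v' (hv'.trans hu))
    have e3 := congrArg (fun E : Divisor K F₁ => E u) hprin
    simp only [hDR, map_add, Finsupp.add_apply, e1, e2, add_zero] at e3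
    exact e3
  · have hs : ∀ v' : Place K F₂, v'.restrictAlong α' hα' = u.restrictAlong β hβ →
        (Finsupp.single v (1 : ℤ) : Divisor K F₂) v' = 0 := by
      intro v' hv'
      apply Finsupp.single_eq_of_ne
      rintro rfl
      exact hu hv'.symm
    rw [pullPush_apply_eq_zero β α' hβ hα' _ u hs,
      pushPull_apply_eq_zero β α' a b hβ hα' ha hb hsq _ u hs]

end BaseChange

/-! ### Functoriality of push and pull -/

section Functoriality

variable {F F' F'' : Type*} [Field F] [Field F'] [Field F''] [Algebra K F] [Algebra K F']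
  [Algebra K F'']

lemma isIntegral_comp_along (φ : F →ₐ[K] F') (ψ : F' →ₐ[K] F'')
    (hφ : φ.toRingHom.IsIntegral) (hψ : ψ.toRingHom.IsIntegral) :
    (ψ.comp φ).toRingHom.IsIntegral :=
  RingHom.IsIntegral.trans _ _ hφ hψ

lemma inertiaDegAlong_eq_one (φ : F →ₐ[K] F') (hφ : φ.toRingHom.IsIntegral)
    (hdeg : ∀ w : Place K F', w.deg = 1) (w : Place K F') :
    w.inertiaDegAlong φ hφ = 1 := by
  letI := algebraAlong φ
  haveI := isScalarTower_along φ
  haveI := isIntegral_along φ hφ
  have h := w.deg_restrict_mul_inertiaDeg (F := F)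
  rw [hdeg w] at h
  exact Nat.eq_one_of_mul_eq_one_left h

lemma ramificationIndexAlong_pos (φ : F →ₐ[K] F') (hφ : φ.toRingHom.IsIntegral)
    (w : Place K F') : 0 < w.ramificationIndexAlong φ := by
  letI := algebraAlong φ
  haveI := isScalarTower_along φ
  haveI := isIntegral_along φ hφ
  exact w.ramificationIndex_pos (F := F)

lemma hbc_exists_ord_eq_one (v : Place K F) : ∃ f : F, f ≠ 0 ∧ v.ord f = 1 := by
  obtain ⟨π, hπ⟩ := IsDiscreteValuationRing.exists_irreducible v.toValuationSubring
  refine ⟨(π : F), ?_, v.ord_coe_irreducible hπ⟩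
  simpa [ne_eq, ZeroMemClass.coe_eq_zero] using hπ.ne_zero

lemma ramificationIndexAlong_comp (φ : F →ₐ[K] F') (ψ : F' →ₐ[K] F'')
    (hφ : φ.toRingHom.IsIntegral) (hψ : ψ.toRingHom.IsIntegral)
    (hψφ : (ψ.comp φ).toRingHom.IsIntegral) (w : Place K F'') :
    w.ramificationIndexAlong (ψ.comp φ) =
      w.ramificationIndexAlong ψ * (w.restrictAlong ψ hψ).ramificationIndexAlong φ := by
  obtain ⟨f, -, hf⟩ := hbc_exists_ord_eq_one (K := K) (w.restrictAlong (ψ.comp φ) hψφ)
  have h1 := Place.ord_restrictAlong (ψ.comp φ) hψφ w f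
  have h2 := Place.ord_restrictAlong ψ hψ w (φ f)
  have h3 := Place.ord_restrictAlong φ hφ (w.restrictAlong ψ hψ) f
  rw [restrictAlong_comp φ ψ hφ hψ hψφ w] at h3
  rw [hf] at h1 h3
  rw [AlgHom.comp_apply, h2, h3] at h1
  have : ((w.ramificationIndexAlong (ψ.comp φ) : ℕ) : ℤ) =
      ((w.ramificationIndexAlong ψ * (w.restrictAlong ψ hψ).ramificationIndexAlong φ : ℕ) : ℤ) := by
    push_cast
    linarith
  exact_mod_cast this

/-- `(ψ ∘ φ)_* = φ_* ∘ ψ_*` when all places have degree one. -/
theorem pushforwardAlong_comp (φ : F →ₐ[K] F') (ψ : F' →ₐ[K] F'')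
    (hφ : φ.toRingHom.IsIntegral) (hψ : ψ.toRingHom.IsIntegral)
    (hψφ : (ψ.comp φ).toRingHom.IsIntegral) (hdeg' : ∀ w : Place K F', w.deg = 1)
    (hdeg'' : ∀ w : Place K F'', w.deg = 1) :
    Divisor.pushforwardAlong (ψ.comp φ) hψφ =
      (Divisor.pushforwardAlong φ hφ).comp (Divisor.pushforwardAlong ψ hψ) := by
  apply Finsupp.addHom_ext
  intro w n
  rw [AddMonoidHom.comp_apply, Divisor.pushforwardAlong_single, Divisor.pushforwardAlong_single,
    Divisor.pushforwardAlong_single, inertiaDegAlong_eq_one (ψ.comp φ) hψφ hdeg'',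
    inertiaDegAlong_eq_one ψ hψ hdeg'', inertiaDegAlong_eq_one φ hφ hdeg',
    restrictAlong_comp φ ψ hφ hψ hψφ w]
  simp

/-- `(ψ ∘ φ)^* = ψ^* ∘ φ^*`. -/
theorem pullbackAlong_comp [HasPrincipalDivisors K F'] [HasPrincipalDivisors K F'']
    (φ : F →ₐ[K] F') (ψ : F' →ₐ[K] F'')
    (hφ : φ.toRingHom.IsIntegral) (hψ : ψ.toRingHom.IsIntegral)
    (hψφ : (ψ.comp φ).toRingHom.IsIntegral) :
    Divisor.pullbackAlong (ψ.comp φ) hψφ =
      (Divisor.pullbackAlong ψ hψ).comp (Divisor.pullbackAlong φ hφ) := by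
  refine DFunLike.ext _ _ fun D => ?_
  refine Finsupp.ext fun w => ?_
  rw [AddMonoidHom.comp_apply, Divisor.pullbackAlong_apply, Divisor.pullbackAlong_apply,
    Divisor.pullbackAlong_apply, ramificationIndexAlong_comp φ ψ hφ hψ hψφ w,
    restrictAlong_comp φ ψ hφ hψ hψφ w]
  push_cast
  ring

end Functoriality

end Fermat.Agent.HeckeBar
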