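/-
Item 74 (HECKE-BAR), generic part (helper2): norm compatibility in a compositum square.

If `M` is generated over `F₁` by the image of `F₂` and `[M : F₁] = [F₂ : F₀]`
(i.e. `M = F₁ ⊗_{F₀} F₂`), then `N_{M/F₁}(b g) = β (N_{F₂/F₀} g)`.
-/
import Mathlib
import Fermat.Agent.HeckeBar.BaseChange

set_option autoImplicit false

open AlgebraicCurve

namespace Fermat.Agent.HeckeBar

variable {K : Type*} [Field K]
variable {F₀ F₁ F₂ M : Type*} [Field F₀] [Field F₁] [Field F₂] [Field M]
  [Algebra K F₀] [Algebra K F₁] [Algebra K F₂] [Algebra K M]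

/-- norm compatibility from a pair of compatible bases -/
theorem normCompat_of_basis (β : F₀ →ₐ[K] F₁) (α' : F₀ →ₐ[K] F₂) (a : F₁ →ₐ[K] M)
    (b : F₂ →ₐ[K] M) (hsq : a.comp β = b.comp α')
    {ι : Type*} [Fintype ι] [DecidableEq ι]
    (e : letI := algebraAlong α'; Module.Basis ι F₀ F₂)
    (e' : letI := algebraAlong a; Module.Basis ι F₁ M)
    (he : ∀ i, e' i = b (e i)) : NormCompat β α' a b := by
  intro g
  letI := algebraAlong α'
  letI := algebraAlong a
  show Algebra.norm F₁ (b g) = β (Algebra.norm F₀ g)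
  rw [Algebra.norm_eq_matrix_det e' (b g), Algebra.norm_eq_matrix_det e g]
  show _ = (β : F₀ →+* F₁) _
  rw [RingHom.map_det]
  congr 1
  ext i j
  rw [RingHom.mapMatrix_apply, Matrix.map_apply, Algebra.leftMulMatrix_eq_repr_mul,
    Algebra.leftMulMatrix_eq_repr_mul]
  show _ = β _
  -- expand in the basis `e`
  have key : ∀ x : F₂, b x = ∑ k, (β (e.repr x k)) • e' k := by
    intro x
    conv_lhs => rw [← e.sum_repr x]
    rw [map_sum]
    refine Finset.sum_congr rfl fun k _ => ?_
    rw [he k]
    show b (α' (e.repr x k) * e k) = a (β (e.repr x k)) * b (e k)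
    rw [map_mul]
    congr 1
    have := congrArg (fun φ : F₀ →ₐ[K] M => φ (e.repr x k)) hsq
    simpa using this.symm
  have h2 : b g * e' j = ∑ k, (β (e.repr (g * e j) k)) • e' k := by
    rw [he j, ← map_mul, key]
  rw [h2, map_sum]
  simp only [map_smul, Module.Basis.repr_self, Finsupp.coe_finsetSum, Finset.sum_apply,
    Finsupp.smul_apply, Finsupp.single_apply, smul_eq_mul, mul_ite, mul_one, mul_zero,
    Finset.sum_ite_eq', Finset.mem_univ, if_true]

/-- norm compatibility when `M` is generated by `F₁` and `F₂` and the degrees agree -/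
theorem normCompat_of_adjoin (β : F₀ →ₐ[K] F₁) (α' : F₀ →ₐ[K] F₂) (a : F₁ →ₐ[K] M)
    (b : F₂ →ₐ[K] M) (hsq : a.comp β = b.comp α')
    (hfin : FiniteAlong K α')
    (hgen : letI := algebraAlong a; Algebra.adjoin F₁ (Set.range b) = ⊤)
    (hrank : finrankAlong K a = finrankAlong K α') : NormCompat β α' a b := by
  classical
  letI := algebraAlong α'
  letI := algebraAlong a
  haveI : Module.Finite F₀ F₂ := hfin
  let ι := Module.Free.ChooseBasisIndex F₀ F₂
  let e : Module.Basis ι F₀ F₂ := Module.Free.chooseBasis F₀ F₂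
  -- the images `b (e i)` span `M` over `F₁`
  have hb_mem : ∀ g : F₂, b g ∈ Submodule.span F₁ (Set.range fun i => b (e i)) := by
    intro g
    have h1 : g = ∑ k, (e.repr g k) • e k := (e.sum_repr g).symm
    rw [h1, map_sum]
    refine Submodule.sum_mem _ fun k _ => ?_
    have h2 : b ((e.repr g k) • e k) = (β (e.repr g k)) • b (e k) := by
      show b (α' (e.repr g k) * e k) = a (β (e.repr g k)) * b (e k)
      rw [map_mul]
      congr 1
      have := congrArg (fun φ : F₀ →ₐ[K] M => φ (e.repr g k)) hsq
      simpa using this.symm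
    rw [h2]
    exact Submodule.smul_mem _ _ (Submodule.subset_span ⟨k, rfl⟩)
  have hspan : ⊤ ≤ Submodule.span F₁ (Set.range fun i => b (e i)) := by
    have h3 : Subalgebra.toSubmodule (Algebra.adjoin F₁ (Set.range b))
        = Submodule.span F₁ (Set.range b) := by
      rw [Algebra.adjoin_eq_span]
      congr 1
      have : (Submonoid.closure (Set.range b) : Set M) = Set.range b := by
        have hsub : (Submonoid.closure (Set.range b)) = MonoidHom.mrange (b : F₂ →* M) := by
          apply le_antisymm
          · rw [Submonoid.closure_le]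
            rintro _ ⟨g, rfl⟩
            exact ⟨g, rfl⟩
          · rintro _ ⟨g, rfl⟩
            exact Submonoid.subset_closure ⟨g, rfl⟩
        rw [hsub]
        rfl
      exact this
    rw [hgen] at h3
    have h4 : (⊤ : Submodule F₁ M) = Submodule.span F₁ (Set.range b) := by
      rw [← h3]; rfl
    rw [h4, Submodule.span_le]
    rintro _ ⟨g, rfl⟩
    exact hb_mem g
  have hcard : Fintype.card ι = Module.finrank F₁ M := by
    have h5 : Module.finrank F₁ M = Module.finrank F₀ F₂ := hrank
    rw [h5, Module.finrank_eq_card_chooseBasisIndex]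
  let e' : Module.Basis ι F₁ M := basisOfTopLeSpanOfCardEqFinrank (fun i => b (e i)) hspan hcard
  exact normCompat_of_basis β α' a b hsq e e'
    (fun i => by rw [coe_basisOfTopLeSpanOfCardEqFinrank])

end Fermat.Agent.HeckeBar
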