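/-
Item 74 (HECKE-BAR), piece H6 (helper29): the MODULAR input of the base-change square.

* `fiberData_adjoin_eq_top`, `adjoin_jF_jdF_eq_top` : `F_M = ℚ̄(j, j_M)`;
* `inclBar N M h : FF N →ₐ FF M` (`N ∣ M`), `qpowBar N M d h : FF N →ₐ FF M` (`f(q) ↦ f(q^d)`,
  `N * d ∣ M`), with `heckeAlphaBar = inclBar`, `heckeBetaBar = qpowBar` and the composition rules;
* `dedekindPsi_mul_finrankAlong_inclBar` : `ψ(N) · [F_M : F_N] = ψ(M)`; `finrankAlong_inclBar_prime`;
  `finiteAlong_inclBar`, `isIntegral_inclBar`, `finiteAlong_qpowBar`, `isIntegral_qpowBar`;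
* `adjoin_range_qpowBar_eq_top` (hgen), `finrankAlong_square` (hrank), `square_comm` (hsq),
  `normCompat_square` : `NormCompat β_ℓ α_ℓ' a b` for the square at level `M = N ℓ ℓ'`.
No sorry.
-/
import Mathlib
import Fermat.Agent.S24lib.Final
import Fermat.Prelude.Def_ModularCurve_HeckeOperatorTotal
import Fermat.Agent.HeckeBar.NormCompat

set_option autoImplicit false

open scoped MatrixGroups
open AlgebraicCurve IntermediateField CongruenceSubgroup ModularCurve UpperHalfPlane Polynomial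
open Fermat.Agent.S24lib

namespace Fermat.Agent.HeckeBar

/-- In a `FiberData`, an element with pairwise distinct expansions generates `F` over `K(u)`. -/
theorem fiberData_adjoin_eq_top {K F L : Type} [Field K] [Field F] [Algebra K F] [Field L]
    [Algebra K L] [CharZero K] {u : F} {G : Type} [Group G] {I : Type} [Fintype I]
    [MulAction G I] {g : G} (D : FiberData K F L u I g) [Nonempty I] (x : F)
    (hx : Function.Injective (fun i => D.σ i x)) : IntermediateField.adjoin K {u, x} = ⊤ := by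
  classical
  have hfd := D.finiteDimensional
  have hfr := D.finrank_eq
  have hint : IsIntegral K⟮u⟯ x := IsIntegral.of_finite _ _
  obtain ⟨i₀⟩ := ‹Nonempty I›
  let φ : K⟮u⟯ →+* LaurentSeries L := (D.σ i₀).comp (algebraMap K⟮u⟯ F)
  have hne : (minpoly K⟮u⟯ x).map φ ≠ 0 :=
    (Polynomial.map_ne_zero_iff φ.injective).2 (minpoly.ne_zero hint)
  have hroot : ∀ i, D.σ i x ∈ ((minpoly K⟮u⟯ x).map φ).roots := by
    intro i
    rw [Polynomial.mem_roots hne]
    have e : (minpoly K⟮u⟯ x).map φ = ((minpoly K⟮u⟯ x).map (algebraMap K⟮u⟯ F)).map (D.σ i) := by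
      rw [Polynomial.map_map]
      congr 1
      refine RingHom.ext fun a => ?_
      exact (D.σ_eq_of_mem_adjoin i i₀ a.2).symm
    rw [e, IsRoot, Polynomial.eval_map, Polynomial.eval₂_hom, Polynomial.eval_map,
      ← Polynomial.aeval_def, minpoly.aeval, map_zero]
  have hcard : Fintype.card I ≤ (minpoly K⟮u⟯ x).natDegree := by
    have h1 : (Finset.univ.image (fun i => D.σ i x)).card = Fintype.card I := by
      rw [Finset.card_image_of_injective _ hx, Finset.card_univ]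
    have h2 := Polynomial.card_le_degree_of_subset_roots
      (p := (minpoly K⟮u⟯ x).map φ) (Z := Finset.univ.image (fun i => D.σ i x)) (by
        intro y hy
        rw [Finset.mem_val, Finset.mem_image] at hy
        obtain ⟨i, -, rfl⟩ := hy
        exact hroot i)
    rw [h1, Polynomial.natDegree_map] at h2
    exact h2
  have h1 : K⟮u⟯⟮x⟯ = ⊤ :=
    (Field.primitive_element_iff_minpoly_natDegree_eq K⟮u⟯ x).2
      (le_antisymm (hfr ▸ D.natDegree_minpoly_le x) (hfr ▸ hcard))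
  have h2 := adjoin_simple_adjoin_simple K u x
  rw [← h2, h1, restrictScalars_top]

variable (N : ℕ) [NeZero N]

/-- the expansions at the cusps are pairwise distinct on `j(q^N)` -/
theorem σInf_jdF_injective :
    Function.Injective (fun q : SL(2, ℤ) ⧸ Gamma0 N => σInf N q (jdF N N dvd_rfl)) := by
  intro q q' h
  simp only [σInf, embF_jdF, twist_apply] at h
  have h2 : q.out • jdWH N N dvd_rfl = q'.out • jdWH N N dvd_rfl := expInf_injective N h
  have h1 : q.out⁻¹ * q'.out ∈ Gamma0 N := by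
    apply jN_comp_inv_injective
    intro z
    have h3 := congrArg (fun φ : WH N => (φ : ℍ → ℂ) z) h2
    simp only [wh_smul_apply] at h3
    have e1 : ((jdWH N N dvd_rfl : WH N) : ℍ → ℂ) = jdH N := rfl
    rw [e1, jdH_eq_jFun, jdH_eq_jFun] at h3
    exact h3
  rw [← QuotientGroup.eq, QuotientGroup.out_eq', QuotientGroup.out_eq'] at h1
  exact h1

/-- **H6 (a).** `F_N = ℚ̄(j, j_N)`. -/
theorem adjoin_jF_jdF_eq_top :
    IntermediateField.adjoin Kbar {jF N, jdF N N dvd_rfl} = ⊤ := by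
  let _ : Algebra Kbar ℂ := ιC.toAlgebra
  have h := fiberData_adjoin_eq_top (fiberInf N) (jdF N N dvd_rfl) (σInf_jdF_injective N)
  rw [eq_top_iff, ← h, IntermediateField.adjoin_le_iff]
  rintro y (rfl | rfl)
  · exact inv_mem (IntermediateField.subset_adjoin Kbar _ (Set.mem_insert _ _))
  · exact IntermediateField.subset_adjoin Kbar _ (Set.mem_insert_of_mem _ rfl)

/-! ### The level maps `F_N → F_M` -/

section Maps

/-- `F_N ⊂ F_M` inside `ℚ̄((q))` for `N ∣ M`. -/
theorem ffBar_mono {N M : ℕ} [NeZero N] [NeZero M] (h : N ∣ M) :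
    modularFunctionFieldBar N ≤ modularFunctionFieldBar M := by
  change laurentBaseChange Kbar _ ≤ laurentBaseChange Kbar _
  rw [laurentBaseChange, IntermediateField.adjoin_le_iff]
  rintro _ ⟨y, hy, rfl⟩
  exact coeffEmb_mem_laurentBaseChange Kbar (full_degeneracy_le h hy)

/-- the inclusion `F_N → F_M`, `N ∣ M` -/
noncomputable def inclBar (N M : ℕ) [NeZero N] [NeZero M] (h : N ∣ M) : FF N →ₐ[Kbar] FF M :=
  IntermediateField.inclusion (ffBar_mono h)

@[simp] theorem coe_inclBar (N M : ℕ) [NeZero N] [NeZero M] (h : N ∣ M) (x : FF N) :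
    ((inclBar N M h x : FF M) : LaurentSeries Kbar) = (x : LaurentSeries Kbar) :=
  IntermediateField.coe_inclusion _ x

theorem heckeAlphaBar_eq_inclBar (N ℓ : ℕ) [NeZero N] [NeZero ℓ] :
    haveI : NeZero (N * ℓ) := ⟨Nat.mul_ne_zero (NeZero.ne N) (NeZero.ne ℓ)⟩
    heckeAlphaBar Kbar N ℓ = inclBar N (N * ℓ) (dvd_mul_right N ℓ) := rfl

/-- `f(q) ↦ f(q^d)` as a map `F_N → F_M`, for `N * d ∣ M` -/
noncomputable def qpowBar (N M d : ℕ) [NeZero N] [NeZero M] [NeZero d] (h : N * d ∣ M) :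
    FF N →ₐ[Kbar] FF M :=
  haveI : NeZero (N * d) := ⟨Nat.mul_ne_zero (NeZero.ne N) (NeZero.ne d)⟩
  (inclBar (N * d) M h).comp (heckeBetaBar Kbar N d)

@[simp] theorem coe_qpowBar (N M d : ℕ) [NeZero N] [NeZero M] [NeZero d] (h : N * d ∣ M)
    (x : FF N) :
    ((qpowBar N M d h x : FF M) : LaurentSeries Kbar) = qExpand Kbar d (x : LaurentSeries Kbar) :=
  rfl

theorem heckeBetaBar_eq_qpowBar (N ℓ : ℕ) [NeZero N] [NeZero ℓ] :
    haveI : NeZero (N * ℓ) := ⟨Nat.mul_ne_zero (NeZero.ne N) (NeZero.ne ℓ)⟩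
    heckeBetaBar Kbar N ℓ = qpowBar N (N * ℓ) ℓ dvd_rfl := by
  have : NeZero (N * ℓ) := ⟨Nat.mul_ne_zero (NeZero.ne N) (NeZero.ne ℓ)⟩
  refine AlgHom.ext fun x => Subtype.ext ?_
  rw [coe_qpowBar, coe_heckeBetaBar]

theorem inclBar_comp_inclBar (N N' M : ℕ) [NeZero N] [NeZero N'] [NeZero M] (h : N ∣ N')
    (h' : N' ∣ M) : (inclBar N' M h').comp (inclBar N N' h) = inclBar N M (h.trans h') := by
  refine AlgHom.ext fun x => Subtype.ext ?_
  rw [AlgHom.comp_apply, coe_inclBar, coe_inclBar, coe_inclBar]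

theorem qpowBar_comp_inclBar (N N' M d : ℕ) [NeZero N] [NeZero N'] [NeZero M] [NeZero d]
    (h : N ∣ N') (h' : N' * d ∣ M) :
    (qpowBar N' M d h').comp (inclBar N N' h)
      = qpowBar N M d ((Nat.mul_dvd_mul_right h d).trans h') := by
  refine AlgHom.ext fun x => Subtype.ext ?_
  rw [AlgHom.comp_apply, coe_qpowBar, coe_qpowBar, coe_inclBar]

theorem inclBar_comp_qpowBar (N N' M d : ℕ) [NeZero N] [NeZero N'] [NeZero M] [NeZero d]
    (h : N * d ∣ N') (h' : N' ∣ M) :
    (inclBar N' M h').comp (qpowBar N N' d h) = qpowBar N M d (h.trans h') := by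
  refine AlgHom.ext fun x => Subtype.ext ?_
  rw [AlgHom.comp_apply, coe_inclBar, coe_qpowBar, coe_qpowBar]

theorem qpowBar_comp_qpowBar (N N' M d d' : ℕ) [NeZero N] [NeZero N'] [NeZero M] [NeZero d]
    [NeZero d'] (h : N * d ∣ N') (h' : N' * d' ∣ M) :
    haveI : NeZero (d' * d) := ⟨Nat.mul_ne_zero (NeZero.ne d') (NeZero.ne d)⟩
    (qpowBar N' M d' h').comp (qpowBar N N' d h)
      = qpowBar N M (d' * d) (by
          rw [mul_comm d' d, ← mul_assoc]
          exact (Nat.mul_dvd_mul_right h d').trans h') := by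
  have : NeZero (d' * d) := ⟨Nat.mul_ne_zero (NeZero.ne d') (NeZero.ne d)⟩
  refine AlgHom.ext fun x => Subtype.ext ?_
  rw [AlgHom.comp_apply, coe_qpowBar, coe_qpowBar, coe_qpowBar, qExpand_qExpand]

theorem qpowBar_congr (N M d d' : ℕ) [NeZero N] [NeZero M] [NeZero d] [NeZero d']
    (hd : d = d') (h : N * d ∣ M) : qpowBar N M d h = qpowBar N M d' (hd ▸ h) := by
  subst hd
  rfl

theorem inclBar_jF (N M : ℕ) [NeZero N] [NeZero M] (h : N ∣ M) :
    inclBar N M h (jF N) = jF M := by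
  apply Subtype.ext
  rw [coe_inclBar, coe_jF, coe_jF]

theorem inclBar_jdF (N M d : ℕ) [NeZero N] [NeZero M] [NeZero d] (h : N ∣ M) (hd : d ∣ N) :
    inclBar N M h (jdF N d hd) = jdF M d (hd.trans h) := by
  apply Subtype.ext
  rw [coe_inclBar, coe_jdF, coe_jdF]

theorem coeffEmb_qExpand_bar (n : ℕ) [NeZero n] (x : LaurentSeries ℚ) :
    coeffEmb Kbar (qExpand ℚ n x) = qExpand Kbar n (coeffEmb Kbar x) := by
  ext k
  by_cases hk : (n : ℤ) ∣ k
  · obtain ⟨m, rfl⟩ := hk
    rw [coeffEmb, coeffMap_coeff, qExpand_coeff_mul, qExpand_coeff_mul, coeffMap_coeff]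
  · rw [coeffEmb, coeffMap_coeff, qExpand_coeff_of_not_dvd n _ hk,
      qExpand_coeff_of_not_dvd n _ hk, map_zero]

theorem qpowBar_jF (N M d : ℕ) [NeZero N] [NeZero M] [NeZero d] (h : N * d ∣ M) :
    qpowBar N M d h (jF N) = jdF M d ((dvd_mul_left d N).trans h) := by
  apply Subtype.ext
  rw [coe_qpowBar, coe_jF, coe_jdF, coeffEmb_qExpand_bar]

theorem qpowBar_jdF (N M d e : ℕ) [NeZero N] [NeZero M] [NeZero d] [NeZero e] (h : N * d ∣ M)
    (he : e ∣ N) :
    haveI : NeZero (d * e) := ⟨Nat.mul_ne_zero (NeZero.ne d) (NeZero.ne e)⟩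
    qpowBar N M d h (jdF N e he)
      = jdF M (d * e) ((mul_comm d e ▸ Nat.mul_dvd_mul_right he d).trans h) := by
  have : NeZero (d * e) := ⟨Nat.mul_ne_zero (NeZero.ne d) (NeZero.ne e)⟩
  apply Subtype.ext
  rw [coe_qpowBar, coe_jdF, coe_jdF, coeffEmb_qExpand_bar, coeffEmb_qExpand_bar, qExpand_qExpand]

end Maps


/-! ### Degrees -/

section Degrees

/-- tower law through a simple subextension, transported along an algebra map -/
theorem finrank_adjoin_mul_finrankAlong {K A B : Type*} [Field K] [Field A] [Field B]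
    [Algebra K A] [Algebra K B] (a : A →ₐ[K] B) (x : A) :
    Module.finrank K⟮x⟯ A * finrankAlong K a = Module.finrank K⟮a x⟯ B := by
  letI := algebraAlong a
  letI : Algebra K⟮x⟯ B := (a.toRingHom.comp (algebraMap K⟮x⟯ A)).toAlgebra
  haveI : IsScalarTower K⟮x⟯ A B := IsScalarTower.of_algebraMap_eq fun _ => rfl
  have h1 : Module.finrank K⟮x⟯ A * Module.finrank A B = Module.finrank K⟮x⟯ B :=
    Module.finrank_mul_finrank K⟮x⟯ A B
  have hmap : K⟮x⟯.map a = K⟮a x⟯ := by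
    rw [IntermediateField.adjoin_map, Set.image_singleton]
  let i : K⟮x⟯ ≃ₐ[K] K⟮a x⟯ := (K⟮x⟯.equivMap a).trans (IntermediateField.equivOfEq hmap)
  have h2 : Module.finrank K⟮x⟯ B = Module.finrank K⟮a x⟯ B := by
    refine Algebra.finrank_eq_of_equiv_equiv i.toRingEquiv (RingEquiv.refl B) ?_
    refine RingHom.ext fun e => ?_
    rfl
  unfold finrankAlong
  rw [h1, h2]

theorem dedekindPsi_pos (N : ℕ) [NeZero N] : 0 < dedekindPsi N := by
  rw [← fin_card_I N]
  exact Fintype.card_pos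

/-- **H6 (b).** `[F_M : F_N] · ψ(N) = ψ(M)` for `N ∣ M`. -/
theorem dedekindPsi_mul_finrankAlong_inclBar (N M : ℕ) [NeZero N] [NeZero M] (h : N ∣ M) :
    dedekindPsi N * finrankAlong Kbar (inclBar N M h) = dedekindPsi M := by
  have h1 := finrank_adjoin_mul_finrankAlong (inclBar N M h) (jF N)
  rw [inclBar_jF, fin_finrank, fin_finrank] at h1
  exact h1

theorem finrankAlong_inclBar_pos (N M : ℕ) [NeZero N] [NeZero M] (h : N ∣ M) :
    0 < finrankAlong Kbar (inclBar N M h) := by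
  have h1 := dedekindPsi_mul_finrankAlong_inclBar N M h
  have h2 := dedekindPsi_pos M
  rw [← h1] at h2
  exact Nat.pos_of_mul_pos_left h2

theorem finiteAlong_inclBar (N M : ℕ) [NeZero N] [NeZero M] (h : N ∣ M) :
    FiniteAlong Kbar (inclBar N M h) := by
  letI := algebraAlong (inclBar N M h)
  exact Module.finite_of_finrank_pos (finrankAlong_inclBar_pos N M h)

theorem isIntegral_inclBar (N M : ℕ) [NeZero N] [NeZero M] (h : N ∣ M) :
    (inclBar N M h).toRingHom.IsIntegral := by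
  letI := algebraAlong (inclBar N M h)
  haveI : Module.Finite (FF N) (FF M) := finiteAlong_inclBar N M h
  exact fun x => Algebra.IsIntegral.isIntegral (R := FF N) x

theorem transcendental_jF (N : ℕ) [NeZero N] : Transcendental Kbar (jF N) :=
  (fin_ffData N).trans

theorem finrankAlong_qpowBar_pos (N M d : ℕ) [NeZero N] [NeZero M] [NeZero d] (h : N * d ∣ M) :
    0 < finrankAlong Kbar (qpowBar N M d h) := by
  have h1 := finrank_adjoin_mul_finrankAlong (qpowBar N M d h) (jF N)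
  have ht : Transcendental Kbar (qpowBar N M d h (jF N)) := by
    intro halg
    exact transcendental_jF N
      ((isAlgebraic_algHom_iff (qpowBar N M d h) (qpowBar N M d h).injective).1 halg)
  haveI := fin_ffData M
  have hfd : FFData Kbar (qpowBar N M d h (jF N)) := FFData.of_transcendental (x := jF M) ht
  have h2 : 0 < Module.finrank Kbar⟮qpowBar N M d h (jF N)⟯ (FF M) :=
    haveI := hfd.fin
    Module.finrank_pos
  rw [← h1] at h2
  exact Nat.pos_of_mul_pos_left h2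

theorem finiteAlong_qpowBar (N M d : ℕ) [NeZero N] [NeZero M] [NeZero d] (h : N * d ∣ M) :
    FiniteAlong Kbar (qpowBar N M d h) := by
  letI := algebraAlong (qpowBar N M d h)
  exact Module.finite_of_finrank_pos (finrankAlong_qpowBar_pos N M d h)

theorem isIntegral_qpowBar (N M d : ℕ) [NeZero N] [NeZero M] [NeZero d] (h : N * d ∣ M) :
    (qpowBar N M d h).toRingHom.IsIntegral := by
  letI := algebraAlong (qpowBar N M d h)
  haveI : Module.Finite (FF N) (FF M) := finiteAlong_qpowBar N M d h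
  exact fun x => Algebra.IsIntegral.isIntegral (R := FF N) x

/-- the degree of `F_{Nℓ} / F_N` for a prime `ℓ` -/
theorem finrankAlong_inclBar_prime (N : ℕ) [NeZero N] {ℓ : ℕ} (hℓ : ℓ.Prime) (M : ℕ) [NeZero M]
    (hM : M = N * ℓ) :
    finrankAlong Kbar (inclBar N M (hM ▸ dvd_mul_right N ℓ)) = if ℓ ∣ N then ℓ else ℓ + 1 := by
  have h1 := dedekindPsi_mul_finrankAlong_inclBar N M (hM ▸ dvd_mul_right N ℓ)
  have h0 := dedekindPsi_pos N
  have hM' : dedekindPsi M = dedekindPsi (ℓ * N) := by rw [hM, mul_comm]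
  rw [hM'] at h1
  split_ifs with hd
  · rw [Fermat.Agent.S20lib.dedekindPsi_prime_mul_of_dvd hℓ (NeZero.ne N) hd,
      mul_comm ℓ] at h1
    exact Nat.eq_of_mul_eq_mul_left h0 h1
  · rw [Fermat.Agent.S20lib.dedekindPsi_prime_mul_of_not_dvd hℓ (NeZero.ne N) hd,
      mul_comm (ℓ + 1)] at h1
    exact Nat.eq_of_mul_eq_mul_left h0 h1

end Degrees

/-! ### The base-change square at level `M = N ℓ ℓ'` -/

section Square

theorem jdF_congr (M d d' : ℕ) [NeZero d] [NeZero d'] (h : d = d') (hd : d ∣ M) :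
    jdF M d hd = jdF M d' (h ▸ hd) := by
  subst h
  rfl

/-- **H6 (d).** `F_M` is generated over `F_{N₁}` by the image of `q ↦ q^d : F_{N₂} → F_M`
when `M = N₂ d`. -/
theorem adjoin_range_qpowBar_eq_top (N₁ N₂ M d : ℕ) [NeZero N₁] [NeZero N₂] [NeZero M] [NeZero d]
    (h₁ : N₁ ∣ M) (h₂ : N₂ * d ∣ M) (hM : M ∣ N₂ * d) :
    letI := algebraAlong (inclBar N₁ M h₁)
    Algebra.adjoin (FF N₁) (Set.range (qpowBar N₂ M d h₂)) = ⊤ := by
  letI := algebraAlong (inclBar N₁ M h₁)
  haveI : IsScalarTower Kbar (FF N₁) (FF M) := isScalarTower_along (inclBar N₁ M h₁)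
  haveI : Module.Finite (FF N₁) (FF M) := finiteAlong_inclBar N₁ M h₁
  rw [← IntermediateField.adjoin_toSubalgebra, ← IntermediateField.top_toSubalgebra]
  congr 1
  rw [← IntermediateField.restrictScalars_eq_top_iff (K := Kbar), eq_top_iff,
    ← adjoin_jF_jdF_eq_top M, IntermediateField.adjoin_le_iff]
  rintro y (rfl | rfl)
  · rw [SetLike.mem_coe, IntermediateField.mem_restrictScalars, ← inclBar_jF N₁ M h₁]
    exact IntermediateField.algebraMap_mem _ (jF N₁)
  · rw [SetLike.mem_coe, IntermediateField.mem_restrictScalars]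
    apply IntermediateField.subset_adjoin
    refine ⟨jdF N₂ N₂ dvd_rfl, ?_⟩
    rw [qpowBar_jdF]
    have e : d * N₂ = M := by
      rw [mul_comm]
      exact Nat.dvd_antisymm h₂ hM
    exact jdF_congr M _ _ e _

variable (N : ℕ) [NeZero N] {ℓ ℓ' : ℕ} [NeZero ℓ] [NeZero ℓ']

/-- **H6 (c).** The two vertical degrees of the square agree. -/
theorem finrankAlong_square (hℓ : ℓ.Prime) (hℓ' : ℓ'.Prime) (hne : ℓ ≠ ℓ') (M : ℕ) [NeZero M]
    (hM : M = N * ℓ * ℓ') :
    finrankAlong Kbar (inclBar (N * ℓ) M (hM ▸ dvd_mul_right (N * ℓ) ℓ'))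
      = finrankAlong Kbar (heckeAlphaBar Kbar N ℓ') := by
  rw [heckeAlphaBar_eq_inclBar, finrankAlong_inclBar_prime (N * ℓ) hℓ' M hM,
    finrankAlong_inclBar_prime N hℓ' (N * ℓ') rfl]
  have hiff : ℓ' ∣ N * ℓ ↔ ℓ' ∣ N := by
    constructor
    · intro h
      rcases (Nat.Prime.dvd_mul hℓ').1 h with h | h
      · exact h
      · exact absurd ((Nat.prime_dvd_prime_iff_eq hℓ' hℓ).1 h).symm hne
    · exact fun h => h.mul_right ℓ
  simp only [hiff]

/-- the square `a ∘ β_ℓ = b ∘ α_ℓ'` commutes -/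
theorem square_comm (M : ℕ) [NeZero M] (h₁ : N * ℓ ∣ M) (h₂ : N * ℓ' * ℓ ∣ M) :
    (inclBar (N * ℓ) M h₁).comp (heckeBetaBar Kbar N ℓ)
      = (qpowBar (N * ℓ') M ℓ h₂).comp (heckeAlphaBar Kbar N ℓ') := by
  rw [heckeBetaBar_eq_qpowBar, heckeAlphaBar_eq_inclBar, inclBar_comp_qpowBar,
    qpowBar_comp_inclBar]

/-- **H6.** Norm compatibility for the square
`F_N →β_ℓ F_{Nℓ} → F_M`, `F_N →α_ℓ' F_{Nℓ'} →(q ↦ q^ℓ) F_M`, `M = N ℓ ℓ'`. -/
theorem normCompat_square (hℓ : ℓ.Prime) (hℓ' : ℓ'.Prime) (hne : ℓ ≠ ℓ') (M : ℕ) [NeZero M]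
    (hM : M = N * ℓ * ℓ') :
    NormCompat (heckeBetaBar Kbar N ℓ) (heckeAlphaBar Kbar N ℓ')
      (inclBar (N * ℓ) M (hM ▸ dvd_mul_right (N * ℓ) ℓ'))
      (qpowBar (N * ℓ') M ℓ (hM ▸ dvd_of_eq (Nat.mul_right_comm N ℓ' ℓ))) := by
  refine normCompat_of_adjoin _ _ _ _ (square_comm N M _ _) ?_ ?_ ?_
  · rw [heckeAlphaBar_eq_inclBar]
    exact finiteAlong_inclBar _ _ _
  · exact adjoin_range_qpowBar_eq_top (N * ℓ) (N * ℓ') M ℓ _ _
      (hM ▸ dvd_of_eq (Nat.mul_right_comm N ℓ ℓ'))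
  · exact finrankAlong_square N hℓ hℓ' hne M hM

end Square

end Fermat.Agent.HeckeBar
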