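/-
Item 74 (HECKE-BAR), generic part (helper29): the basic facts on a `K`-embedding `φ : F →ₐ[K] F'`
of function fields over an algebraically closed field of characteristic zero
(`FFData` of helper12's generic function-field block on both sides).

* `gen_charZero`, `gen_transcendental_map`, `gen_ffData_map`;
* `gen_finrankAlong_pos`, `gen_finiteAlong`, `gen_isIntegral`, `gen_separableAlong`;
* `gen_hasPrincipalDivisors`, `gen_deg_eq_one`.
No sorry.
-/
import Mathlib
import Fermat.Prelude.Def_AlgebraicCurve_Correspondence
import Fermat.Agent.S24lib.FFPrincipal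

set_option autoImplicit false

open AlgebraicCurve IntermediateField
open Fermat.Agent.S24lib

namespace Fermat.Agent.HeckeBar

variable {K F F' : Type*} [Field K] [Field F] [Field F'] [Algebra K F] [Algebra K F']

/-- tower law through a simple subextension, transported along an algebra map -/
theorem gen_finrank_adjoin_mul_finrankAlong (a : F →ₐ[K] F') (x : F) :
    Module.finrank K⟮x⟯ F * finrankAlong K a = Module.finrank K⟮a x⟯ F' := by
  letI := algebraAlong a
  letI : Algebra K⟮x⟯ F' := (a.toRingHom.comp (algebraMap K⟮x⟯ F)).toAlgebra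
  haveI : IsScalarTower K⟮x⟯ F F' := IsScalarTower.of_algebraMap_eq fun _ => rfl
  have h1 : Module.finrank K⟮x⟯ F * Module.finrank F F' = Module.finrank K⟮x⟯ F' :=
    Module.finrank_mul_finrank K⟮x⟯ F F'
  have hmap : K⟮x⟯.map a = K⟮a x⟯ := by
    rw [IntermediateField.adjoin_map, Set.image_singleton]
  let i : K⟮x⟯ ≃ₐ[K] K⟮a x⟯ := (K⟮x⟯.equivMap a).trans (IntermediateField.equivOfEq hmap)
  have h2 : Module.finrank K⟮x⟯ F' = Module.finrank K⟮a x⟯ F' := by
    refine Algebra.finrank_eq_of_equiv_equiv i.toRingEquiv (RingEquiv.refl F') ?_
    refine RingHom.ext fun e => ?_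
    rfl
  unfold finrankAlong
  rw [h1, h2]

/-- the image of a transcendental element is transcendental -/
theorem gen_transcendental_map (φ : F →ₐ[K] F') {t : F} (ht : Transcendental K t) :
    Transcendental K (φ t) := fun halg =>
  ht ((isAlgebraic_algHom_iff φ φ.injective).1 halg)

/-- `FFData` for the image of a transcendental element -/
theorem gen_ffData_map (φ : F →ₐ[K] F') {t : F} (ht : Transcendental K t) {x' : F'}
    [FFData K x'] : FFData K (φ t) :=
  FFData.of_transcendental (x := x') (gen_transcendental_map φ ht)

theorem gen_finrankAlong_pos (φ : F →ₐ[K] F') {t : F} (ht : Transcendental K t) {x' : F'}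
    [FFData K x'] : 0 < finrankAlong K φ := by
  have h1 := gen_finrank_adjoin_mul_finrankAlong φ t
  have hfd : FFData K (φ t) := gen_ffData_map φ ht (x' := x')
  have h2 : 0 < Module.finrank K⟮φ t⟯ F' :=
    haveI := hfd.fin
    Module.finrank_pos
  rw [← h1] at h2
  exact Nat.pos_of_mul_pos_left h2

/-- **finiteness** of `F' / φ(F)` -/
theorem gen_finiteAlong (φ : F →ₐ[K] F') {t : F} (ht : Transcendental K t) {x' : F'}
    [FFData K x'] : FiniteAlong K φ := by
  letI := algebraAlong φ
  exact Module.finite_of_finrank_pos (gen_finrankAlong_pos φ ht (x' := x'))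

/-- **integrality** of `φ` -/
theorem gen_isIntegral (φ : F →ₐ[K] F') {t : F} (ht : Transcendental K t) {x' : F'}
    [FFData K x'] : φ.toRingHom.IsIntegral := by
  letI := algebraAlong φ
  haveI : Module.Finite F F' := gen_finiteAlong φ ht (x' := x')
  exact fun x => Algebra.IsIntegral.isIntegral (R := F) x

/-- characteristic zero is inherited from the constants -/
theorem gen_charZero (K F : Type*) [Field K] [Field F] [Algebra K F] [CharZero K] : CharZero F :=
  charZero_of_injective_algebraMap (algebraMap K F).injective

/-- **separability** of `F' / φ(F)` (characteristic zero) -/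
theorem gen_separableAlong (φ : F →ₐ[K] F') {t : F} (ht : Transcendental K t) {x' : F'}
    [h : FFData K x'] : SeparableAlong K φ := by
  letI := algebraAlong φ
  haveI : Module.Finite F F' := gen_finiteAlong φ ht (x' := x')
  haveI : CharZero K := h.char0
  haveI : CharZero F := gen_charZero K F
  show Algebra.IsSeparable F F'
  infer_instance

/-- **principal divisors** exist and have degree `0` -/
theorem gen_hasPrincipalDivisors [IsAlgClosed K] {x' : F'} [FFData K x'] :
    HasPrincipalDivisors K F' :=
  ⟨fun f _ => ffExists_principal (x := x') f⟩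

/-- all places have **degree one** -/
theorem gen_deg_eq_one [IsAlgClosed K] {x' : F'} [h : FFData K x'] (w : Place K F') :
    w.deg = 1 :=
  ffDeg_eq_one w h.trans

end Fermat.Agent.HeckeBar
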