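/-
Item 74 (HECKE-BAR), final wiring (helper2): `HeckeOperatorsCommuteBar N` from
* the generic commutation theorem `pic0_correspondence_comm` (Commute.lean),
* the modular squares of helper29 (ModDeg.lean, GenBasic.lean),
* and the two generic inputs for the INCLUSIONS `F_N ⊂ F_M`: the norm formula (H5) and
  approximation (H1), taken here as hypotheses `hNF`, `hAP`.
-/
import Mathlib
import Fermat.Prelude.Def_ModularCurve_HeckeModule
import Fermat.Agent.HeckeBar.Commute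
import Fermat.Agent.HeckeBar.ModDeg
import Fermat.Agent.HeckeBar.GenBasic

set_option autoImplicit false

open AlgebraicCurve ModularCurve
open Fermat.Agent.S24lib

namespace Fermat.Agent.HeckeBar

/-- H5 for the level inclusions -/
def InclNormFormula : Prop :=
  ∀ (N M : ℕ) [NeZero N] [NeZero M] (h : N ∣ M),
    NormFormulaAlong Kbar (inclBar N M h) (finiteAlong_inclBar N M h)

/-- H1 for the level inclusions -/
def InclApprox : Prop :=
  ∀ (N M : ℕ) [NeZero N] [NeZero M] (h : N ∣ M),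
    ApproxAlong (inclBar N M h) (isIntegral_inclBar N M h)

lemma wir_hasPrincipalDivisors (M : ℕ) [NeZero M] : HasPrincipalDivisors Kbar (FF M) :=
  haveI := fin_ffData M
  gen_hasPrincipalDivisors (x' := jF M)

lemma wir_deg_eq_one (M : ℕ) [NeZero M] (w : Place Kbar (FF M)) : w.deg = 1 :=
  haveI := fin_ffData M
  gen_deg_eq_one (x' := jF M) w

section Square

variable (N : ℕ) [NeZero N] {ℓ ℓ' : ℕ} [NeZero ℓ] [NeZero ℓ']

/-- the `SquareData` of the square `F_N →β_ℓ F_{Nℓ} ⊂ F_M`, `F_N ⊂ F_{Nℓ'} →(q ↦ q^ℓ) F_M`. -/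
theorem wir_squareData (hNF : InclNormFormula) (hAP : InclApprox)
    (hℓ : ℓ.Prime) (hℓ' : ℓ'.Prime) (hne : ℓ ≠ ℓ') (M : ℕ) [NeZero M] (hM : M = N * ℓ * ℓ')
    (hβ : (heckeBetaBar Kbar N ℓ).toRingHom.IsIntegral) :
    haveI : NeZero (N * ℓ) := ⟨Nat.mul_ne_zero (NeZero.ne N) (NeZero.ne ℓ)⟩
    haveI : NeZero (N * ℓ') := ⟨Nat.mul_ne_zero (NeZero.ne N) (NeZero.ne ℓ')⟩
    haveI := wir_hasPrincipalDivisors (N * ℓ)
    haveI := wir_hasPrincipalDivisors (N * ℓ')
    haveI := wir_hasPrincipalDivisors M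
    SquareData (heckeBetaBar Kbar N ℓ) (heckeAlphaBar Kbar N ℓ')
      (inclBar (N * ℓ) M (hM ▸ dvd_mul_right (N * ℓ) ℓ'))
      (qpowBar (N * ℓ') M ℓ (hM ▸ dvd_of_eq (Nat.mul_right_comm N ℓ' ℓ))) := by
  haveI : NeZero (N * ℓ) := ⟨Nat.mul_ne_zero (NeZero.ne N) (NeZero.ne ℓ)⟩
  haveI : NeZero (N * ℓ') := ⟨Nat.mul_ne_zero (NeZero.ne N) (NeZero.ne ℓ')⟩
  haveI := wir_hasPrincipalDivisors (N * ℓ)
  haveI := wir_hasPrincipalDivisors (N * ℓ')
  haveI := wir_hasPrincipalDivisors M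
  exact
    { hβ := hβ
      hα' := isIntegral_inclBar N (N * ℓ') (dvd_mul_right N ℓ')
      ha := isIntegral_inclBar _ _ _
      hb := isIntegral_qpowBar _ _ _ _
      hsq := square_comm N M _ _
      hfinα := finiteAlong_inclBar N (N * ℓ') (dvd_mul_right N ℓ')
      hNα := hNF N (N * ℓ') (dvd_mul_right N ℓ')
      hfina := finiteAlong_inclBar _ _ _
      hNa := hNF _ _ _
      hnc := normCompat_square N hℓ hℓ' hne M hM
      happ := hAP N (N * ℓ') (dvd_mul_right N ℓ') }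

end Square

/-- **Hecke operators commute** (given the norm formula and approximation for inclusions). -/
theorem heckeOperatorsCommuteBar_of (hNF : InclNormFormula) (hAP : InclApprox)
    (N : ℕ) [NeZero N] : HeckeOperatorsCommuteBar N := by
  intro p p'
  haveI : NeZero (p : ℕ) := ⟨p.2.ne_zero⟩
  haveI : NeZero (p' : ℕ) := ⟨p'.2.ne_zero⟩
  by_cases hpp : p = p'
  · rw [hpp]
  have hne : (p : ℕ) ≠ (p' : ℕ) := fun h => hpp (Subtype.ext h)
  apply LinearMap.ext
  intro x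
  rw [Module.End.mul_apply, Module.End.mul_apply, heckeOperatorBar_apply, heckeOperatorBar_apply,
    heckeOperatorBar_apply, heckeOperatorBar_apply]
  by_cases h : HeckeInputsAlong Kbar N p
  swap
  · rw [heckeOperatorAlong_of_not h]
    simp
  by_cases h' : HeckeInputsAlong Kbar N p'
  swap
  · rw [heckeOperatorAlong_of_not h']
    simp
  obtain ⟨hα, hβ, hP, hfin, hFI, hN⟩ := h
  obtain ⟨hα', hβ', hP', hfin', hFI', hN'⟩ := h'
  haveI : NeZero (N * (p : ℕ)) := ⟨Nat.mul_ne_zero (NeZero.ne N) (NeZero.ne _)⟩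
  haveI : NeZero (N * (p' : ℕ)) := ⟨Nat.mul_ne_zero (NeZero.ne N) (NeZero.ne _)⟩
  haveI : NeZero (N * (p : ℕ) * (p' : ℕ)) := ⟨Nat.mul_ne_zero (NeZero.ne _) (NeZero.ne _)⟩
  haveI := wir_hasPrincipalDivisors (N * (p : ℕ))
  haveI := wir_hasPrincipalDivisors (N * (p' : ℕ))
  haveI := wir_hasPrincipalDivisors (N * (p : ℕ) * (p' : ℕ))
  rw [heckeOperatorAlong_eq hα hβ hFI hfin hN, heckeOperatorAlong_eq hα' hβ' hFI' hfin' hN']
  have S := wir_squareData N hNF hAP p.2 p'.2 hne (N * (p : ℕ) * (p' : ℕ)) rfl hβ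
  have S' := wir_squareData N hNF hAP p'.2 p.2 (Ne.symm hne) (N * (p : ℕ) * (p' : ℕ))
    (Nat.mul_right_comm N p p') hβ'
  refine pic0_correspondence_comm S S' ?_ ?_ (wir_deg_eq_one _) (wir_deg_eq_one _)
    (wir_deg_eq_one _) hα hβ hα' hβ' hFI hfin hN hFI' hfin' hN' x
  · rw [heckeAlphaBar_eq_inclBar, heckeAlphaBar_eq_inclBar, inclBar_comp_inclBar,
      inclBar_comp_inclBar]
  · rw [heckeBetaBar_eq_qpowBar, heckeBetaBar_eq_qpowBar, qpowBar_comp_qpowBar,
      qpowBar_comp_qpowBar]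
    exact qpowBar_congr _ _ _ _ (mul_comm _ _) _

end Fermat.Agent.HeckeBar
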