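/-
Item 74 (HECKE-BAR), generic block GEN (helper2): APPROXIMATION (hypothesis H1).

For a finite separable extension `F'/F` of function fields over `K` and a place `w₀` of `F'`
there is `g ∈ F'` with a simple zero at `w₀` and neither zero nor pole at the other places of
`F'` over the same place of `F`.  Proof: the Chinese remainder theorem in the Dedekind domain
`B_v = integralClosure O_v F'` of helper15's `LocDict`.

* `apx_loc_approx` : the local statement (for an `Algebra F F'`);
* `gen_approxAlong` : the `Along` form `ApproxAlong φ hφ`;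
* `inclApprox` : `InclApprox` of `Wiring.lean`.
No sorry.
-/
import Mathlib
import Fermat.Agent.HeckeBar.LocDict
import Fermat.Agent.HeckeBar.GenBasic
import Fermat.Agent.HeckeBar.Wiring

set_option autoImplicit false
set_option linter.style.haveILetI false
set_option linter.unusedSectionVars false

noncomputable section

namespace Fermat.Agent.HeckeBar

open AlgebraicCurve IsDedekindDomain WithZero IsLocalRing Fermat.Agent.S24lib

section Local

variable {K F F' : Type*} [Field K] [Field F] [Field F'] [Algebra K F] [Algebra K F']
  [Algebra F F'] [IsScalarTower K F F'] [FiniteDimensional F F'] [Algebra.IsSeparable F F']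

/-- the primes of `B_v` are finitely many -/
theorem apx_finite_primes [HasPrincipalDivisors K F'] (v : Place K F) :
    Finite (HeightOneSpectrum (locB v F')) := by
  have hfin : {w : Place K F' | w.restrict F = v}.Finite := Place.restrict_fiber_finite v
  haveI : Finite {w : Place K F' | w.restrict F = v} := hfin
  refine Finite.of_injective
    (fun Q : HeightOneSpectrum (locB v F') =>
      (⟨locPlace v Q, locPlace_restrict v Q⟩ : {w : Place K F' | w.restrict F = v})) ?_
  intro Q Q' h
  exact locPlace_injective v (congrArg Subtype.val h)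

/-- **Approximation**, local form. -/
theorem apx_loc_approx [HasPrincipalDivisors K F'] (w₀ : Place K F') :
    ∃ g : F', g ≠ 0 ∧ w₀.ord g = 1 ∧
      ∀ w : Place K F', w ≠ w₀ → w.restrict F = w₀.restrict F → w.ord g = 0 := by
  classical
  set v : Place K F := w₀.restrict F with hv
  set Q₀ : HeightOneSpectrum (locB v F') := locPrime v w₀ rfl with hQ₀
  haveI : Finite (HeightOneSpectrum (locB v F')) := apx_finite_primes v
  letI : Fintype (HeightOneSpectrum (locB v F')) := Fintype.ofFinite _
  obtain ⟨π₀, hπ₀⟩ := Q₀.intValuation_exists_uniformizer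
  obtain ⟨y, hy⟩ := IsDedekindDomain.exists_forall_sub_mem_ideal
    (s := (Finset.univ : Finset (HeightOneSpectrum (locB v F'))))
    (fun Q => Q.asIdeal) (fun Q => if Q = Q₀ then 2 else 1)
    (fun Q _ => Q.prime)
    (fun Q _ Q' _ hne h => hne (HeightOneSpectrum.ext h))
    (fun Q => if (Q : HeightOneSpectrum (locB v F')) = Q₀ then π₀ else 1)
  have hy₀ : y - π₀ ∈ Q₀.asIdeal ^ 2 := by
    have := hy Q₀ (Finset.mem_univ _)
    simpa using this
  have hyQ : ∀ Q : HeightOneSpectrum (locB v F'), Q ≠ Q₀ → y - 1 ∈ Q.asIdeal := by
    intro Q hQ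
    have := hy Q (Finset.mem_univ _)
    simpa [hQ] using this
  -- the valuation of `y` at `Q₀`
  have hval : Q₀.intValuation y = exp (-1 : ℤ) := by
    rw [← hπ₀]
    apply Valuation.map_eq_of_sub_lt
    have h1 : Q₀.intValuation (y - π₀) ≤ exp (-((2 : ℕ) : ℤ)) :=
      (Q₀.intValuation_le_pow_iff_mem _ 2).2 hy₀
    refine lt_of_le_of_lt h1 ?_
    rw [hπ₀, exp_lt_exp]
    norm_num
  have hy0 : y ≠ 0 := by
    intro h0
    rw [h0, Valuation.map_zero] at hval
    exact WithZero.exp_ne_zero hval.symm
  refine ⟨(y : F'), ?_, ?_, ?_⟩
  · simpa using hy0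
  · have h1 : locPlace v Q₀ = w₀ := locPlace_locPrime v w₀ rfl
    rw [← h1, loc_ord_locPlace]
    have h2 : Q₀.valuation F' (y : F') = exp (-1 : ℤ) := by
      rw [← hval]
      exact Q₀.valuation_of_algebraMap (K := F') y
    rw [h2, log_exp]
    norm_num
  · intro w hw hwv
    have hne : locPrime v w hwv ≠ Q₀ := by
      intro h
      apply hw
      rw [← locPlace_locPrime v w hwv, h, hQ₀, locPlace_locPrime]
    have hmem : y - 1 ∈ (locPrime v w hwv).asIdeal := hyQ _ hne
    have hnot : y ∉ (locPrime v w hwv).asIdeal := by
      intro hy'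
      have h1 : (1 : locB v F') ∈ (locPrime v w hwv).asIdeal := by
        have := (locPrime v w hwv).asIdeal.sub_mem hy' hmem
        simpa using this
      exact (locPrime v w hwv).isPrime.ne_top ((Ideal.eq_top_iff_one _).2 h1)
    have h1 : 0 ≤ w.ord (y : F') := ffOrd_nonneg_of_mem w (locB_le v w hwv y.1 y.2)
    have h2 : ¬ (0 < w.ord (y : F')) := fun hpos =>
      hnot ((loc_mem_locPrime_iff v w hwv y).2 (Or.inr hpos))
    omega

end Local

section Along

variable {K F F' : Type*} [Field K] [Field F] [Field F'] [Algebra K F] [Algebra K F']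

/-- **Approximation** along a finite separable embedding. -/
theorem apx_approxAlong_of [HasPrincipalDivisors K F'] (φ : F →ₐ[K] F')
    (hφ : φ.toRingHom.IsIntegral) (hfin : FiniteAlong K φ) (hsep : SeparableAlong K φ) :
    ApproxAlong φ hφ := by
  letI := algebraAlong φ
  haveI := isScalarTower_along φ
  haveI := isIntegral_along φ hφ
  haveI : FiniteDimensional F F' := hfin
  haveI : Algebra.IsSeparable F F' := hsep
  intro w₀
  exact apx_loc_approx (F := F) w₀

/-- **Approximation** for embeddings of function fields over an algebraically closed field of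
characteristic zero. -/
theorem gen_approxAlong [IsAlgClosed K] (φ : F →ₐ[K] F') (hφ : φ.toRingHom.IsIntegral)
    {t : F} (ht : Transcendental K t) {x' : F'} [FFData K x'] : ApproxAlong φ hφ :=
  haveI : HasPrincipalDivisors K F' := gen_hasPrincipalDivisors (x' := x')
  apx_approxAlong_of φ hφ (gen_finiteAlong φ ht (x' := x')) (gen_separableAlong φ ht (x' := x'))

end Along

/-- **H1 for the level inclusions** `F_N ⊂ F_M`. -/
theorem inclApprox : InclApprox := by
  intro N M _ _ h
  haveI := fin_ffData M
  exact gen_approxAlong (inclBar N M h) (isIntegral_inclBar N M h) (transcendental_jF N)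
    (x' := jF M)

/-- Hecke operators commute, given only the norm formula for the level inclusions. -/
theorem heckeOperatorsCommuteBar_of_normFormula (hNF : InclNormFormula)
    (N : ℕ) [NeZero N] : ModularCurve.HeckeOperatorsCommuteBar N :=
  heckeOperatorsCommuteBar_of hNF inclApprox N

end Fermat.Agent.HeckeBar

end
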