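/-
Item 74 (HECKE-BAR), generic part (helper29): the fundamental identity `Σ e·f = [F' : F]`
follows from the norm formula `ord_v (N f) = Σ_{w ∣ v} f(w ∣ v) · ord_w f`
(apply it to `f = π`, a uniformizer at `v`: `N π = π ^ [F' : F]`).
No sorry.
-/
import Mathlib
import Fermat.Prelude.Def_AlgebraicCurve_Correspondence

set_option autoImplicit false

open AlgebraicCurve

namespace Fermat.Agent.HeckeBar

section

variable {K F F' : Type*} [Field K] [Field F] [Field F']
  [Algebra K F] [Algebra K F'] [Algebra F F'] [IsScalarTower K F F']
  [Algebra.IsIntegral F F'] [HasPrincipalDivisors K F']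

/-- every place has a uniformizer -/
theorem exists_ord_eq_one (v : Place K F) : ∃ π : F, π ≠ 0 ∧ v.ord π = 1 := by
  obtain ⟨π, hπ⟩ := IsDiscreteValuationRing.exists_irreducible v.toValuationSubring
  refine ⟨(π : F), ?_, v.ord_coe_irreducible hπ⟩
  intro h0
  exact hπ.ne_zero (Subtype.ext h0)

/-- `Σ_{w ∣ v} e(w) f(w) = [F' : F]` from the norm formula -/
theorem sumRamificationInertia_of_normFormula [Module.Finite F F']
    (H : Divisor.PushforwardNormFormula K F F') : SumRamificationInertia K F F' := by
  classical
  refine ⟨fun v => ?_⟩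
  obtain ⟨π, hπ0, hπ⟩ := exists_ord_eq_one v
  have hf : algebraMap F F' π ≠ 0 := by simpa using hπ0
  obtain ⟨D, hD, -⟩ := HasPrincipalDivisors.exists_divisor (K := K) (algebraMap F F' π) hf
  have h1 := H (algebraMap F F' π) hf D hD v
  rw [Algebra.norm_algebraMap, ← zpow_natCast, v.ord_zpow, hπ, mul_one,
    Divisor.pushforward_apply] at h1
  rw [← h1, ← Finset.sum_filter]
  have hDw : ∀ w : Place K F', w.restrict F = v → D w = (w.ramificationIndex F : ℤ) := by
    intro w hw
    rw [hD w, w.ord_restrict π, hw, hπ, mul_one]
  have hfil : D.support.filter (fun w => w.restrict F = v) = v.fiber F' := by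
    ext w
    rw [Finset.mem_filter, Place.mem_fiber, Finsupp.mem_support_iff]
    constructor
    · exact fun h => h.2
    · intro hw
      refine ⟨?_, hw⟩
      rw [hDw w hw]
      have := w.ramificationIndex_pos (F := F)
      omega
  rw [hfil]
  refine Finset.sum_congr rfl fun w hw => ?_
  rw [hDw w (Place.mem_fiber.mp hw)]

end

section Along

variable {K F F' : Type*} [Field K] [Field F] [Field F'] [Algebra K F] [Algebra K F']

/-- **Fundamental identity from the norm formula**, in the `Along` language. -/
theorem fundamentalIdentityAlong_of_normFormulaAlong [HasPrincipalDivisors K F']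
    (φ : F →ₐ[K] F') (hφ : φ.toRingHom.IsIntegral) (hfin : FiniteAlong K φ)
    (hN : NormFormulaAlong K φ hfin) : FundamentalIdentityAlong K φ hφ := by
  letI := algebraAlong φ
  haveI := isScalarTower_along φ
  haveI := isIntegral_along φ hφ
  haveI : Module.Finite F F' := hfin
  haveI : SumRamificationInertia K F F' := sumRamificationInertia_of_normFormula hN
  exact (inferInstance : FundamentalIdentity K F F')

end Along

end Fermat.Agent.HeckeBar
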