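/-
Item 74 (HECKE-BAR), generic block GEN, part 3 (helper15): the norm formula and the fundamental
identity in the `Along` language of the Prelude, for ANY `K`-algebra map `φ : F →ₐ[K] F'`
between function fields over an algebraically closed field of characteristic zero.
-/
import Mathlib
import Fermat.Agent.HeckeBar.LocNorm
import Fermat.Agent.HeckeBar.GenBasic
import Fermat.Agent.HeckeBar.GenFI

set_option autoImplicit false
set_option linter.style.haveILetI false

noncomputable section

namespace Fermat.Agent.HeckeBar

open AlgebraicCurve Fermat.Agent.S24lib

variable {K F F' : Type*} [Field K] [Field F] [Field F'] [Algebra K F] [Algebra K F']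

/-- **Norm formula** (GF1), abstract hypotheses: `F'/φ(F)` finite, characteristic zero, all
places of `F'` of degree one, principal divisors on `F'`. -/
theorem gen_normFormula_of [CharZero K] [HasPrincipalDivisors K F'] (φ : F →ₐ[K] F')
    (hfin : FiniteAlong K φ) (hdeg' : ∀ w : Place K F', w.deg = 1) :
    NormFormulaAlong K φ hfin := by
  letI := algebraAlong φ
  haveI := isScalarTower_along φ
  haveI : Module.Finite F F' := hfin
  haveI : CharZero F := gen_charZero K F
  exact loc_normFormula hdeg'

/-- **Norm formula** (GF1) for function fields: `F'` finite over `K(x')`, `K` algebraically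
closed of characteristic zero. -/
theorem gen_normFormula [IsAlgClosed K] (φ : F →ₐ[K] F') {x' : F'} [h : FFData K x']
    (hfin : FiniteAlong K φ) : NormFormulaAlong K φ hfin := by
  haveI : CharZero K := h.char0
  haveI : HasPrincipalDivisors K F' := gen_hasPrincipalDivisors (x' := x')
  exact gen_normFormula_of φ hfin (fun w => gen_deg_eq_one (x' := x') w)

/-- **Fundamental identity** (GF2) for function fields. -/
theorem gen_fundamentalIdentity [IsAlgClosed K] [HasPrincipalDivisors K F'] (φ : F →ₐ[K] F')
    {x' : F'} [h : FFData K x'] (hφ : φ.toRingHom.IsIntegral) (hfin : FiniteAlong K φ) :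
    FundamentalIdentityAlong K φ hφ :=
  fundamentalIdentityAlong_of_normFormulaAlong φ hφ hfin (gen_normFormula φ (x' := x') hfin)

end Fermat.Agent.HeckeBar

end
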