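/-
Item 74 (HECKE-BAR), final assembly (helper15): the Hecke operators on `J₀(N)(ℚ̄)` commute.

Inputs: helper2's generic base-change block and wiring (`BaseChange`, `NormCompat`, `Commute`,
`Wiring`, `GenApprox`), helper29's modular degrees (`ModDeg`, `GenBasic`, `GenFI`) and the norm
formula (`LocDict`, `LocNorm`, `GenNorm`).
-/
import Mathlib
import Fermat.Agent.HeckeBar.GenApprox
import Fermat.Agent.HeckeBar.GenNorm

set_option autoImplicit false
set_option linter.style.haveILetI false

noncomputable section

namespace Fermat.Agent.HeckeBar

open AlgebraicCurve ModularCurve Fermat.Agent.S24lib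

/-- **H5 for the level inclusions** `F_N ⊂ F_M`: the norm formula. -/
theorem inclNormFormula : InclNormFormula := by
  intro N M _ _ h
  haveI := fin_ffData M
  exact gen_normFormula (inclBar N M h) (x' := jF M) (finiteAlong_inclBar N M h)

/-- **The Hecke operators `T_ℓ` on `J₀(N)(ℚ̄)` commute.** -/
theorem heckeOperatorsCommuteBar (N : ℕ) [NeZero N] : HeckeOperatorsCommuteBar N :=
  heckeOperatorsCommuteBar_of_normFormula inclNormFormula N

end Fermat.Agent.HeckeBar

end
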