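/-
Item 74 (HECKE-BAR), W3 (helper2): GALOIS EQUIVARIANCE of correspondences.

Abstract part.  `φ : F →ₐ[K] F'` an integral embedding of function fields over `K`,
`g`, `g'` semilinear automorphisms of `F`, `F'` with `g' ∘ φ = φ ∘ g` (`IntertwinesAlong`).
Then restriction of places, ramification indices, pull-back and push-forward of divisors,
correspondences on divisors and on `Pic⁰` are equivariant.

* `gal_restrictAlong_smul`, `gal_ramificationIndexAlong_smul`,
* `gal_pullbackAlong_smul`, `gal_pushforwardAlong_smul`,
* `gal_correspondence_smul` (divisors), `gal_pic0_correspondence_smul` (`Pic⁰`).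
No sorry.
-/
import Mathlib
import Fermat.Prelude.Def_AlgebraicCurve_Correspondence
import Fermat.Agent.HeckeBar.BaseChange

set_option autoImplicit false
set_option linter.style.haveILetI false
set_option linter.unusedSectionVars false

noncomputable section

namespace Fermat.Agent.HeckeBar

open AlgebraicCurve
open scoped Pointwise

section Abstract

variable {K F F' : Type*} [Field K] [Field F] [Field F'] [Algebra K F] [Algebra K F']
variable {g : SemilinearAut K F} {g' : SemilinearAut K F'}

/-- membership in a translated place -/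
lemma gal_mem_smul_iff (g : SemilinearAut K F) (v : Place K F) (f : F) :
    f ∈ (g • v).toValuationSubring ↔ g⁻¹ • f ∈ v.toValuationSubring := by
  rw [SemilinearAut.smul_toValuationSubring, ValuationSubring.mem_pointwise_smul_iff_inv_smul_mem]

/-- restriction of places is equivariant -/
theorem gal_restrictAlong_smul (φ : F →ₐ[K] F') (hφ : φ.toRingHom.IsIntegral)
    (h : SemilinearAut.IntertwinesAlong φ.toRingHom g g') (w : Place K F') :
    (g' • w).restrictAlong φ hφ = g • (w.restrictAlong φ hφ) := by
  apply Place.ext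
  ext f
  rw [mem_restrictAlong_iff, gal_mem_smul_iff, gal_mem_smul_iff, mem_restrictAlong_iff]
  have h1 : g'⁻¹ • φ f = φ (g⁻¹ • f) := h.inv f
  rw [h1]

/-- the order at a translated place -/
lemma gal_ord_smul_eq (g : SemilinearAut K F) (v : Place K F) (f : F) :
    (g • v).ord f = v.ord (g⁻¹ • f) := by
  have h := SemilinearAut.ord_smul g v (g⁻¹ • f)
  rwa [smul_inv_smul] at h

/-- ramification indices are invariant -/
theorem gal_ramificationIndexAlong_smul (φ : F →ₐ[K] F') (hφ : φ.toRingHom.IsIntegral)
    (h : SemilinearAut.IntertwinesAlong φ.toRingHom g g') (w : Place K F') :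
    (g' • w).ramificationIndexAlong φ = w.ramificationIndexAlong φ := by
  obtain ⟨f, -, hf⟩ := hbc_exists_ord_eq_one (w.restrictAlong φ hφ)
  have h1 := Place.ord_restrictAlong φ hφ w f
  have h2 := Place.ord_restrictAlong φ hφ (g' • w) (g • f)
  rw [gal_restrictAlong_smul φ hφ h, SemilinearAut.ord_smul, hf, mul_one] at h2
  have h3 : φ (g • f) = g' • φ f := (h f).symm
  rw [h3, SemilinearAut.ord_smul, h1, hf, mul_one] at h2
  exact_mod_cast h2.symm

/-- pull-back of divisors is equivariant -/
theorem gal_pullbackAlong_smul [HasPrincipalDivisors K F'] (φ : F →ₐ[K] F')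
    (hφ : φ.toRingHom.IsIntegral)
    (h : SemilinearAut.IntertwinesAlong φ.toRingHom g g') (D : Divisor K F) :
    Divisor.pullbackAlong φ hφ (g • D) = g' • Divisor.pullbackAlong φ hφ D := by
  refine Finsupp.ext fun w => ?_
  rw [Divisor.pullbackAlong_apply, SemilinearAut.divisor_smul_apply,
    SemilinearAut.divisor_smul_apply, Divisor.pullbackAlong_apply,
    gal_restrictAlong_smul φ hφ h.inv, gal_ramificationIndexAlong_smul φ hφ h.inv]

/-- push-forward of divisors is equivariant (all places of degree one) -/
theorem gal_pushforwardAlong_smul (φ : F →ₐ[K] F') (hφ : φ.toRingHom.IsIntegral)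
    (h : SemilinearAut.IntertwinesAlong φ.toRingHom g g')
    (hdeg : ∀ w : Place K F', w.deg = 1) (D' : Divisor K F') :
    Divisor.pushforwardAlong φ hφ (g' • D') = g • Divisor.pushforwardAlong φ hφ D' := by
  induction D' using Finsupp.induction with
  | zero => rw [smul_zero, map_zero, smul_zero]
  | single_add w n D _ _ ih =>
    rw [smul_add, map_add, map_add, smul_add, ih, SemilinearAut.smul_single,
      Divisor.pushforwardAlong_single, Divisor.pushforwardAlong_single,
      SemilinearAut.smul_single, gal_restrictAlong_smul φ hφ h,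
      inertiaDegAlong_eq_one φ hφ hdeg, inertiaDegAlong_eq_one φ hφ hdeg]

/-- correspondences on divisors are equivariant -/
theorem gal_correspondence_smul [HasPrincipalDivisors K F'] (φ ψ : F →ₐ[K] F')
    (hφ : φ.toRingHom.IsIntegral) (hψ : ψ.toRingHom.IsIntegral)
    (h₁ : SemilinearAut.IntertwinesAlong φ.toRingHom g g')
    (h₂ : SemilinearAut.IntertwinesAlong ψ.toRingHom g g')
    (hdeg : ∀ w : Place K F', w.deg = 1) (D : Divisor K F) :
    Divisor.correspondence φ ψ hφ hψ (g • D) = g • Divisor.correspondence φ ψ hφ hψ D := by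
  rw [Divisor.correspondence_apply, Divisor.correspondence_apply,
    gal_pullbackAlong_smul φ hφ h₁, gal_pushforwardAlong_smul ψ hψ h₂ hdeg]

/-- correspondences on `Pic⁰` are equivariant -/
theorem gal_pic0_correspondence_smul [HasPrincipalDivisors K F'] (φ ψ : F →ₐ[K] F')
    (hφ : φ.toRingHom.IsIntegral) (hψ : ψ.toRingHom.IsIntegral)
    (hFI : FundamentalIdentityAlong K φ hφ)
    (hfin : FiniteAlong K ψ) (hN : NormFormulaAlong K ψ hfin)
    (h₁ : SemilinearAut.IntertwinesAlong φ.toRingHom g g')
    (h₂ : SemilinearAut.IntertwinesAlong ψ.toRingHom g g')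
    (hdeg : ∀ w : Place K F', w.deg = 1) (x : Pic0 K F) :
    Pic0.correspondence φ ψ hφ hψ hFI hfin hN (g • x) =
      g • Pic0.correspondence φ ψ hφ hψ hFI hfin hN x := by
  obtain ⟨D, rfl⟩ := Pic0.mk_surjective x
  rw [SemilinearAut.pic0_smul_mk, Pic0.correspondence_mk, Pic0.correspondence_mk,
    SemilinearAut.pic0_smul_mk]
  refine congrArg Pic0.mk (Subtype.ext ?_)
  rw [Pic0.coe_degZeroCorrespondence, SemilinearAut.coe_degZeroSMulHom,
    SemilinearAut.coe_degZeroSMulHom, Pic0.coe_degZeroCorrespondence]
  exact gal_correspondence_smul φ ψ hφ hψ h₁ h₂ hdeg _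

end Abstract

end Fermat.Agent.HeckeBar

end
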