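/-
Item 74 (HECKE-BAR), W3 (helper2): `G_ℚ` commutes with the Hecke operators on `J₀(N)(ℚ̄)`.

* `gal_intertwines_alpha`, `gal_intertwines_beta` : the coefficientwise action of
  `σ ∈ Gal(ℚ̄/ℚ)` intertwines the two degeneracy embeddings `F_N → F_{Nℓ}`;
* `gal_heckeOperatorAlong_smul`, `gal_heckeOperatorBar_smul` : `T_ℓ (σ • x) = σ • T_ℓ x`;
* `gal_smulCommClass` : `SMulCommClass Gal(ℚ̄/ℚ) HeckeAlg (JZero N)` for `heckeModuleBar N`
  (the hypothesis of S37).
No sorry, no hypotheses.
-/
import Mathlib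
import Fermat.Prelude.Def_ModularCurve_HeckeModule
import Fermat.Prelude.Thm_ModularCurve_coeffMap_qExpand
import Fermat.Agent.HeckeBar.Galois
import Fermat.Agent.HeckeBar.Wiring

set_option autoImplicit false
set_option linter.style.haveILetI false
set_option linter.unusedSectionVars false

noncomputable section

namespace Fermat.Agent.HeckeBar

open AlgebraicCurve ModularCurve
open Fermat.Agent.S24lib

section Intertwine

variable (N ℓ : ℕ) [NeZero N] [NeZero ℓ]

/-- `σ` intertwines the inclusion `F_N ⊂ F_{Nℓ}` -/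
theorem gal_intertwines_alpha (σ : Kbar ≃ₐ[ℚ] Kbar) :
    SemilinearAut.IntertwinesAlong (heckeAlphaBar Kbar N ℓ).toRingHom
      (arithmeticGalois (modularFunctionFieldFull N) σ)
      (arithmeticGalois (modularFunctionFieldFull (N * ℓ)) σ) := by
  intro x
  apply Subtype.ext
  show ((arithmeticGalois (modularFunctionFieldFull (N * ℓ)) σ • (heckeAlphaBar Kbar N ℓ x) :
      laurentBaseChange Kbar (modularFunctionFieldFull (N * ℓ))) : LaurentSeries Kbar) =
    ((heckeAlphaBar Kbar N ℓ (arithmeticGalois (modularFunctionFieldFull N) σ • x) :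
      laurentBaseChange Kbar (modularFunctionFieldFull (N * ℓ))) : LaurentSeries Kbar)
  rw [coe_arithmeticGalois_smul, coe_heckeAlphaBar, coe_heckeAlphaBar, coe_arithmeticGalois_smul]

/-- `σ` intertwines `q ↦ q^ℓ : F_N → F_{Nℓ}` -/
theorem gal_intertwines_beta (σ : Kbar ≃ₐ[ℚ] Kbar) :
    SemilinearAut.IntertwinesAlong (heckeBetaBar Kbar N ℓ).toRingHom
      (arithmeticGalois (modularFunctionFieldFull N) σ)
      (arithmeticGalois (modularFunctionFieldFull (N * ℓ)) σ) := by
  intro x
  apply Subtype.ext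
  show ((arithmeticGalois (modularFunctionFieldFull (N * ℓ)) σ • (heckeBetaBar Kbar N ℓ x) :
      laurentBaseChange Kbar (modularFunctionFieldFull (N * ℓ))) : LaurentSeries Kbar) =
    ((heckeBetaBar Kbar N ℓ (arithmeticGalois (modularFunctionFieldFull N) σ • x) :
      laurentBaseChange Kbar (modularFunctionFieldFull (N * ℓ))) : LaurentSeries Kbar)
  rw [coe_arithmeticGalois_smul, coe_heckeBetaBar, coe_heckeBetaBar, coe_arithmeticGalois_smul,
    coeffMap_qExpand]

/-- the Hecke correspondence commutes with `Gal(ℚ̄/ℚ)` -/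
theorem gal_heckeOperatorAlong_smul (σ : Kbar ≃ₐ[ℚ] Kbar) (x : JZero N) :
    heckeOperatorAlong Kbar N ℓ (σ • x) = σ • heckeOperatorAlong Kbar N ℓ x := by
  haveI : NeZero (N * ℓ) := ⟨Nat.mul_ne_zero (NeZero.ne N) (NeZero.ne ℓ)⟩
  by_cases h : HeckeInputsAlong Kbar N ℓ
  · obtain ⟨hα, hβ, hP, hfin, hFI, hN⟩ := h
    haveI := hP
    rw [heckeOperatorAlong_eq hα hβ hFI hfin hN, galois_smul_pic0_def, galois_smul_pic0_def]
    exact gal_pic0_correspondence_smul _ _ hβ hα hFI hfin hN (gal_intertwines_beta N ℓ σ)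
      (gal_intertwines_alpha N ℓ σ) (wir_deg_eq_one (N * ℓ)) x
  · rw [heckeOperatorAlong_of_not h, AddMonoidHom.zero_apply, AddMonoidHom.zero_apply,
      smul_zero]

end Intertwine

section Module

variable (N : ℕ) [NeZero N]

/-- `T_ℓ (σ • x) = σ • T_ℓ x` on `J₀(N)(ℚ̄)` -/
theorem gal_heckeOperatorBar_smul (ℓ : Nat.Primes) (σ : Kbar ≃ₐ[ℚ] Kbar) (x : JZero N) :
    heckeOperatorBar N ℓ (σ • x) = σ • heckeOperatorBar N ℓ x := by
  haveI : NeZero (ℓ : ℕ) := ⟨ℓ.2.ne_zero⟩
  rw [heckeOperatorBar_apply, heckeOperatorBar_apply]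
  exact gal_heckeOperatorAlong_smul N ℓ σ x

/-- integer multiples commute with `σ` -/
lemma gal_smul_zsmul (σ : Kbar ≃ₐ[ℚ] Kbar) (m : ℤ) (x : JZero N) :
    σ • (m • x) = m • (σ • x) := by
  rw [galois_smul_pic0_def, galois_smul_pic0_def]
  exact SemilinearAut.smul_zsmul _ m x

/-- `heckeEvalBar h t` commutes with `σ` -/
theorem gal_heckeEvalBar_smul (h : HeckeOperatorsCommuteBar N) (t : HeckeAlg)
    (σ : Kbar ≃ₐ[ℚ] Kbar) (x : JZero N) :
    heckeEvalBar h t (σ • x) = σ • heckeEvalBar h t x := by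
  induction t using MvPolynomial.induction_on generalizing x with
  | C a =>
    rw [heckeEvalBar_C, Module.End.intCast_apply, Module.End.intCast_apply, gal_smul_zsmul]
  | add p q hp hq =>
    rw [map_add, LinearMap.add_apply, LinearMap.add_apply, smul_add, hp, hq]
  | mul_X p i hp =>
    have hX : heckeEvalBar h (MvPolynomial.X i) = heckeOperatorBar N i :=
      heckeEvalBar_heckeGen h i
    rw [map_mul, hX, Module.End.mul_apply, Module.End.mul_apply, gal_heckeOperatorBar_smul, hp]

/-- **the Galois action on `J₀(N)(ℚ̄)` commutes with the Hecke module structure** -/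
theorem gal_smulCommClass :
    letI := heckeModuleBar N
    SMulCommClass (AlgebraicClosure ℚ ≃ₐ[ℚ] AlgebraicClosure ℚ) HeckeAlg (JZero N) := by
  letI := heckeModuleBar N
  refine ⟨fun σ t x => ?_⟩
  by_cases h : HeckeOperatorsCommuteBar N
  · have e1 := heckeModuleBar_smul_def h t x
    have e2 := heckeModuleBar_smul_def h t (σ • x)
    rw [e1, e2, gal_heckeEvalBar_smul]
  · have e1 := heckeModuleBar_smul_of_not h t x
    have e2 := heckeModuleBar_smul_of_not h t (σ • x)
    rw [e1, e2, gal_smul_zsmul]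

end Module

end Fermat.Agent.HeckeBar

end
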