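/-
Item 74 (HECKE-BAR), generic part (helper2): two correspondences `T₁ = α₁_* β₁^*`,
`T₂ = α₂_* β₂^*` on `F₀` commute as soon as there is a common top field `M` with two base-change
squares:   T₁ T₂ = (a α₁)_* (b β₂)^* = (a' α₂)_* (b' β₁)^* = T₂ T₁.
-/
import Mathlib
import Fermat.Agent.HeckeBar.BaseChange
import Fermat.Agent.HeckeBar.NormCompat

set_option autoImplicit false

open AlgebraicCurve

namespace Fermat.Agent.HeckeBar

variable {K : Type*} [Field K]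

section Congr

variable {F F' : Type*} [Field F] [Field F'] [Algebra K F] [Algebra K F']

lemma pushforwardAlong_congr {φ φ' : F →ₐ[K] F'} (h : φ = φ')
    (hφ : φ.toRingHom.IsIntegral) (hφ' : φ'.toRingHom.IsIntegral) :
    Divisor.pushforwardAlong φ hφ = Divisor.pushforwardAlong φ' hφ' := by
  subst h; rfl

lemma pullbackAlong_congr [HasPrincipalDivisors K F'] {φ φ' : F →ₐ[K] F'} (h : φ = φ')
    (hφ : φ.toRingHom.IsIntegral) (hφ' : φ'.toRingHom.IsIntegral) :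
    Divisor.pullbackAlong φ hφ = Divisor.pullbackAlong φ' hφ' := by
  subst h; rfl

end Congr

section Commute

variable {F₀ F₁ F₂ M : Type*} [Field F₀] [Field F₁] [Field F₂] [Field M]
  [Algebra K F₀] [Algebra K F₁] [Algebra K F₂] [Algebra K M]
  [HasPrincipalDivisors K F₁] [HasPrincipalDivisors K F₂] [HasPrincipalDivisors K M]

/-- The hypotheses of one base-change square `a ∘ β = b ∘ α'`. -/
structure SquareData (β : F₀ →ₐ[K] F₁) (α' : F₀ →ₐ[K] F₂) (a : F₁ →ₐ[K] M) (b : F₂ →ₐ[K] M) :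
    Prop where
  hβ : β.toRingHom.IsIntegral
  hα' : α'.toRingHom.IsIntegral
  ha : a.toRingHom.IsIntegral
  hb : b.toRingHom.IsIntegral
  hsq : a.comp β = b.comp α'
  hfinα : FiniteAlong K α'
  hNα : NormFormulaAlong K α' hfinα
  hfina : FiniteAlong K a
  hNa : NormFormulaAlong K a hfina
  hnc : NormCompat β α' a b
  happ : ApproxAlong α' hα'

/-- composite of two correspondences through one base-change square:
`(α₁_* β₁^*) ∘ (α₂_* β₂^*) = (a α₁)_* (b β₂)^*`. -/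
theorem correspondence_comp_eq {α₁ β₁ : F₀ →ₐ[K] F₁} {α₂ β₂ : F₀ →ₐ[K] F₂}
    {a : F₁ →ₐ[K] M} {b : F₂ →ₐ[K] M} (S : SquareData β₁ α₂ a b)
    (hα₁ : α₁.toRingHom.IsIntegral) (hβ₂ : β₂.toRingHom.IsIntegral)
    (hdeg₁ : ∀ w : Place K F₁, w.deg = 1) (hdegM : ∀ w : Place K M, w.deg = 1) :
    (Divisor.correspondence β₁ α₁ S.hβ hα₁).comp (Divisor.correspondence β₂ α₂ hβ₂ S.hα') =
      Divisor.correspondence (b.comp β₂) (a.comp α₁)
        (isIntegral_comp_along β₂ b hβ₂ S.hb) (isIntegral_comp_along α₁ a hα₁ S.ha) := by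
  have hbc := pullPush_eq_pushPull β₁ α₂ a b S.hβ S.hα' S.ha S.hb S.hsq S.hfinα S.hNα S.hfina
    S.hNa S.hnc S.happ
  unfold Divisor.correspondence
  rw [pushforwardAlong_comp α₁ a hα₁ S.ha _ hdeg₁ hdegM,
    pullbackAlong_comp β₂ b hβ₂ S.hb]
  have h1 : (Divisor.pullbackAlong β₁ S.hβ).comp (Divisor.pushforwardAlong α₂ S.hα')
      = (Divisor.pushforwardAlong a S.ha).comp (Divisor.pullbackAlong b S.hb) := hbc
  calc ((Divisor.pushforwardAlong α₁ hα₁).comp (Divisor.pullbackAlong β₁ S.hβ)).comp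
        ((Divisor.pushforwardAlong α₂ S.hα').comp (Divisor.pullbackAlong β₂ hβ₂))
      = (Divisor.pushforwardAlong α₁ hα₁).comp
          (((Divisor.pullbackAlong β₁ S.hβ).comp (Divisor.pushforwardAlong α₂ S.hα')).comp
            (Divisor.pullbackAlong β₂ hβ₂)) := by
        simp only [AddMonoidHom.comp_assoc]
    _ = (Divisor.pushforwardAlong α₁ hα₁).comp
          (((Divisor.pushforwardAlong a S.ha).comp (Divisor.pullbackAlong b S.hb)).comp
            (Divisor.pullbackAlong β₂ hβ₂)) := by rw [h1]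
    _ = _ := by simp only [AddMonoidHom.comp_assoc]

/-- **Commutation of two correspondences** (divisor level). -/
theorem correspondence_comm {α₁ β₁ : F₀ →ₐ[K] F₁} {α₂ β₂ : F₀ →ₐ[K] F₂}
    {a b' : F₁ →ₐ[K] M} {b a' : F₂ →ₐ[K] M}
    (S : SquareData β₁ α₂ a b) (S' : SquareData β₂ α₁ a' b')
    (hincl : a.comp α₁ = a'.comp α₂) (hq : b.comp β₂ = b'.comp β₁)
    (hdeg₁ : ∀ w : Place K F₁, w.deg = 1) (hdeg₂ : ∀ w : Place K F₂, w.deg = 1)
    (hdegM : ∀ w : Place K M, w.deg = 1) :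
    (Divisor.correspondence β₁ α₁ S.hβ S'.hα').comp (Divisor.correspondence β₂ α₂ S'.hβ S.hα') =
      (Divisor.correspondence β₂ α₂ S'.hβ S.hα').comp
        (Divisor.correspondence β₁ α₁ S.hβ S'.hα') := by
  rw [correspondence_comp_eq S S'.hα' S'.hβ hdeg₁ hdegM,
    correspondence_comp_eq S' S.hα' S.hβ hdeg₂ hdegM]
  unfold Divisor.correspondence
  rw [pushforwardAlong_congr hincl _ (isIntegral_comp_along α₂ a' S.hα' S'.ha),
    pullbackAlong_congr hq _ (isIntegral_comp_along β₁ b' S.hβ S'.hb)]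

/-- **Commutation of two correspondences** on `Pic⁰`. -/
theorem pic0_correspondence_comm {α₁ β₁ : F₀ →ₐ[K] F₁} {α₂ β₂ : F₀ →ₐ[K] F₂}
    {a b' : F₁ →ₐ[K] M} {b a' : F₂ →ₐ[K] M}
    (S : SquareData β₁ α₂ a b) (S' : SquareData β₂ α₁ a' b')
    (hincl : a.comp α₁ = a'.comp α₂) (hq : b.comp β₂ = b'.comp β₁)
    (hdeg₁ : ∀ w : Place K F₁, w.deg = 1) (hdeg₂ : ∀ w : Place K F₂, w.deg = 1)
    (hdegM : ∀ w : Place K M, w.deg = 1)
    (hα₁ : α₁.toRingHom.IsIntegral) (hβ₁ : β₁.toRingHom.IsIntegral)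
    (hα₂ : α₂.toRingHom.IsIntegral) (hβ₂ : β₂.toRingHom.IsIntegral)
    (hFI₁ : FundamentalIdentityAlong K β₁ hβ₁) (hfin₁ : FiniteAlong K α₁)
    (hN₁ : NormFormulaAlong K α₁ hfin₁)
    (hFI₂ : FundamentalIdentityAlong K β₂ hβ₂) (hfin₂ : FiniteAlong K α₂)
    (hN₂ : NormFormulaAlong K α₂ hfin₂) (x : Pic0 K F₀) :
    Pic0.correspondence β₁ α₁ hβ₁ hα₁ hFI₁ hfin₁ hN₁
        (Pic0.correspondence β₂ α₂ hβ₂ hα₂ hFI₂ hfin₂ hN₂ x) =
      Pic0.correspondence β₂ α₂ hβ₂ hα₂ hFI₂ hfin₂ hN₂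
        (Pic0.correspondence β₁ α₁ hβ₁ hα₁ hFI₁ hfin₁ hN₁ x) := by
  obtain ⟨D, rfl⟩ := Pic0.mk_surjective x
  rw [Pic0.correspondence_mk, Pic0.correspondence_mk, Pic0.correspondence_mk,
    Pic0.correspondence_mk]
  congr 1
  apply Subtype.ext
  rw [Pic0.coe_degZeroCorrespondence, Pic0.coe_degZeroCorrespondence,
    Pic0.coe_degZeroCorrespondence, Pic0.coe_degZeroCorrespondence]
  have h := congrArg (fun T : Divisor K F₀ →+ Divisor K F₀ => T (D : Divisor K F₀))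
    (correspondence_comm S S' hincl hq hdeg₁ hdeg₂ hdegM)
  simpa only [AddMonoidHom.comp_apply] using h

end Commute

end Fermat.Agent.HeckeBar
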