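/-
Item 74 (HECKE-BAR), delivery to item 72 (helper2): the two statements of `GalRep/JacInput.lean`
proved by item 74, in exactly the shape used by `s30_of_statements`.

* `hcStatement : GalRep.HCStatement`           (Hecke operators commute; helper15's Final.lean)
* `galCommStatement : GalRep.GalCommStatement` (Galois commutes with Hecke; GaloisHecke.lean)
-/
import Mathlib
import Fermat.Agent.GalRep.JacInput
import Fermat.Agent.HeckeBar.Final
import Fermat.Agent.HeckeBar.GaloisHecke

set_option autoImplicit false

namespace Fermat.Agent.HeckeBar

open ModularCurve

/-- item 74, part 1 -/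
theorem hcStatement : Fermat.Agent.GalRep.HCStatement :=
  fun N _ => heckeOperatorsCommuteBar N

/-- item 74, part 2 -/
theorem galCommStatement : Fermat.Agent.GalRep.GalCommStatement :=
  fun N _ σ ℓ x => (gal_heckeOperatorBar_smul N ℓ σ x).symm

end Fermat.Agent.HeckeBar
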